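import Fermat.Agent.S48.Iface
import Fermat.Agent.G1.B.Concrete

/-!
# S48-PER: nonvanishing of the mod `Λ` eigenspace in `Hom(Γ₁(M), k_Λ)` (definitions and export)

`NonvanStatement` is the export of the module: under the hypotheses of `G1MainStatement` there is a
nonzero homomorphism `x : Γ₁(M) → k_Λ` which kills the elliptic and parabolic elements and is an
eigenvector of the transfer operators `T_p` (`p ∤ M`) and of the diamond operators.
-/

set_option autoImplicit false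

open CongruenceSubgroup Matrix.SpecialLinearGroup UpperHalfPlane Fermat.Agent.G1.B
open scoped MatrixGroups ModularForm

namespace Fermat.Agent.S48.Per

/-- `ψ` kills the elements of finite order and the parabolic elements. -/
def Kills1 {M : ℕ} {B : Type*} [AddCommGroup B] (ψ : Additive (Gamma1 M) →+ B) : Prop :=
  ∀ γ : Gamma1 M, (IsOfFinOrder (γ : SL(2, ℤ)) ∨
    ((γ : SL(2, ℤ)) : Matrix (Fin 2) (Fin 2) ℤ).trace ^ 2 = 4) → ψ (Additive.ofMul γ) = 0

/-- **Export of S48-PER.** -/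
def NonvanStatement : Prop :=
  ∀ (M : ℕ) [NeZero M] (g : CuspForm (Gamma1 M) 2) (χ : DirichletCharacter Qb M)
    (ι : Qb →+* ℂ) (b t : ℕ → Qb) (ℓ : ℕ) (Λ : ValuationSubring Qb),
    ℓ.Prime → Λ.LiesOverPrime ℓ → HasNeb M 2 (fun x => ι (χ x)) g →
    (∀ n : ℕ, ι (b n) = ModularFormClass.qCoeff g n) → (∀ n : ℕ, b n ∈ Λ) →
    (∃ n : ℕ, b n ∉ Λ.nonunits) → (∀ p : ℕ, t p ∈ Λ) →
    (∀ p : ℕ, p.Prime → ¬ p ∣ M → ∀ n : ℕ,
      b (p * n) + (p : Qb) * χ (p : ZMod M) * (if p ∣ n then b (n / p) else 0) - t p * b n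
        ∈ Λ.nonunits) →
    ∃ x : Additive (Gamma1 M) →+ kk Λ, x ≠ 0 ∧ Kills1 x ∧
      (∀ (p : ℕ) [Fact p.Prime] (hpM : ¬ p ∣ M),
        (repsT1 p hpM).op (kk Λ) x = res Λ (t p) • x) ∧
      ∀ σ : SL(2, ℤ), σ ∈ Gamma0 M → ∀ γ γ' : Gamma1 M, (γ' : SL(2, ℤ)) = σ * γ * σ⁻¹ →
        x (Additive.ofMul γ') = res Λ (χ ((σ 1 1 : ℤ) : ZMod M)) * x (Additive.ofMul γ)

/-- the formal Hecke operator on sequences: `(T a)(n) = a(pn) + c a(n/p)`. -/
def cT {C : Type*} [CommRing C] (c : C) (p : ℕ) (a : ℕ → C) : ℕ → C :=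
  fun n => a (p * n) + c * (if p ∣ n then a (n / p) else 0)

/-- the space `S₂(M, χ)`. -/
def S2chi (M : ℕ) (χ : ZMod M → ℂ) : Submodule ℂ (CuspForm (Gamma1 M) 2) where
  carrier := {f | HasNeb M 2 χ f}
  zero_mem' := by
    intro γ _
    simp
  add_mem' := by
    intro f g hf hg γ hγ
    have h1 := hf γ hγ
    have h2 := hg γ hγ
    rw [CuspForm.coe_add, SlashAction.add_slash, h1, h2, smul_add]
  smul_mem' := by
    intro c f hf γ hγ
    have h1 := hf γ hγ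
    rw [CuspForm.coe_smul, ModularForm.SL_smul_slash, h1, smul_comm]

theorem mem_S2chi {M : ℕ} {χ : ZMod M → ℂ} {f : CuspForm (Gamma1 M) 2} :
    f ∈ S2chi M χ ↔ HasNeb M 2 χ f := Iff.rfl

end Fermat.Agent.S48.Per
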