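import Mathlib

/-!
# S48-PER: the abstract nonvanishing lemma (Nakayama)

`A` a commutative ring, `φ : A → F` a surjection onto a field.  `𝒮` an `A`-module with commuting
endomorphisms `T i`, `H` a finitely generated `A`-submodule of `Hom_A(𝒮, C)` which is stable under
`h ↦ h ∘ T i` and separates the points of `𝒮`.  `g0 ∈ 𝒮` is an "eigenvector modulo `ker φ`" with
eigenvalues `t i`.  Then `H ≠ (ker φ) H + ∑ (T i - t i) H`, so there is a nonzero `φ`-semilinear
functional `x : H → F` with `x (h ∘ T i) = φ (t i) x h`.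
-/

set_option autoImplicit false

namespace Fermat.Agent.S48.Per

variable {A : Type*} [CommRing A] {F : Type*} [Field F] (φ : A →+* F)
  {𝒮 : Type*} [AddCommGroup 𝒮] [Module A 𝒮] {C : Type*} [AddCommGroup C] [Module A C]
  {I : Type*} (T : I → Module.End A 𝒮) (t : I → A)

/-- the submodule `(ker φ) H + ∑ (T i - t i) H`. -/
def relSub (H : Submodule A (𝒮 →ₗ[A] C)) : Submodule A (𝒮 →ₗ[A] C) :=
  Submodule.span A ({x | ∃ a : A, ∃ h ∈ H, φ a = 0 ∧ x = a • h} ∪
    {x | ∃ i, ∃ h ∈ H, x = h.comp (T i) - t i • h})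

/-- Nakayama for a commutative ring `B` acting on `𝒮` (hence on `Hom(𝒮, C)`). -/
theorem Abs_nakayama {B : Type*} [CommRing B] (ρ : B →+* Module.End A 𝒮) (c : A →+* B)
    (hc : ∀ a, ρ (c a) = algebraMap A (Module.End A 𝒮) a)
    (H : Submodule A (𝒮 →ₗ[A] C)) (hfg : H.FG) (hstab : ∀ b, ∀ h ∈ H, h.comp (ρ b) ∈ H)
    (J : Ideal B)
    (hle : ∀ h ∈ H, h ∈ Submodule.span A {x | ∃ j ∈ J, ∃ h' ∈ H, x = h'.comp (ρ j)}) :
    ∃ r : B, r - 1 ∈ J ∧ ∀ h ∈ H, h.comp (ρ r) = 0 := by
  classical
  let ρ' : B →+* Module.End A (𝒮 →ₗ[A] C) :=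
    { toFun := fun b => LinearMap.lcomp A C (ρ b)
      map_one' := by
        ext h f
        simp
      map_mul' := by
        intro b b'
        rw [mul_comm b b', map_mul]
        ext h f
        simp
      map_zero' := by
        ext h f
        simp
      map_add' := by
        intro b b'
        ext h f
        simp }
  let _ : Module B (𝒮 →ₗ[A] C) := Module.compHom _ ρ'
  have hsmul : ∀ (b : B) (h : 𝒮 →ₗ[A] C), b • h = h.comp (ρ b) := fun _ _ => rfl
  have hca : ∀ (a : A) (h : 𝒮 →ₗ[A] C), c a • h = a • h := by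
    intro a h
    rw [hsmul, hc]
    ext f
    simp
  let H' : Submodule B (𝒮 →ₗ[A] C) :=
    { carrier := H
      add_mem' := H.add_mem
      zero_mem' := H.zero_mem
      smul_mem' := fun b h hh => hstab b h hh }
  have hmem : ∀ h, h ∈ H' ↔ h ∈ H := fun _ => Iff.rfl
  have hfg' : H'.FG := by
    obtain ⟨S, hS⟩ := hfg
    refine ⟨S, le_antisymm ?_ ?_⟩
    · rw [Submodule.span_le]
      intro h hh
      exact (hmem h).2 (hS ▸ Submodule.subset_span hh)
    · have key : ∀ h ∈ Submodule.span A (S : Set (𝒮 →ₗ[A] C)),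
          h ∈ Submodule.span B (S : Set (𝒮 →ₗ[A] C)) := by
        intro h h1
        induction h1 using Submodule.span_induction with
        | mem x hx => exact Submodule.subset_span hx
        | zero => exact Submodule.zero_mem _
        | add x y _ _ hx hy => exact Submodule.add_mem _ hx hy
        | smul a x _ hx =>
          rw [← hca]
          exact Submodule.smul_mem _ _ hx
      intro h hh
      exact key h (hS ▸ (hmem h).1 hh)
  have hle' : H' ≤ J • H' := by
    intro h hh
    have h1 := hle h ((hmem h).1 hh)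
    clear hh
    induction h1 using Submodule.span_induction with
    | mem x hx =>
      obtain ⟨j, hj, h', hh', rfl⟩ := hx
      rw [← hsmul]
      exact Submodule.smul_mem_smul hj ((hmem h').2 hh')
    | zero => exact Submodule.zero_mem _
    | add x y _ _ hx hy => exact Submodule.add_mem _ hx hy
    | smul a x _ hx =>
      rw [← hca]
      exact Submodule.smul_mem _ _ hx
  obtain ⟨r, hr1, hr2⟩ :=
    Submodule.exists_sub_one_mem_and_smul_eq_zero_of_fg_of_le_smul J H' hfg' hle'
  exact ⟨r, hr1, fun h hh => hr2 h ((hmem h).2 hh)⟩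

/-- **Nakayama.**
PROOF. `𝔸 := Algebra.adjoin A (Set.range T) ⊆ End_A(𝒮)` is commutative
(`Algebra.adjoinCommRingOfComm`).  `D := 𝒮 →ₗ[A] C` is an `𝔸`-module by `a • h := h ∘ a`
(`Module.compHom` along the ring hom `𝔸 → End_A(D)`, `a ↦ LinearMap.lcomp`; it is multiplicative
because `𝔸` is commutative).  `H` is an `𝔸`-submodule `H'` (`Algebra.adjoin_induction`), finitely
generated (`Submodule.FG.of_restrictScalars` or by hand).  `J := Ideal.span` of the elements
`algebraMap a` (`φ a = 0`) and `T i - algebraMap (t i)`.  If `H ≤ relSub` then `H' ≤ J • H'`, so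
`Submodule.exists_sub_one_mem_and_smul_eq_zero_of_fg_of_le_smul` gives `r ∈ 𝔸`, `r - 1 ∈ J`,
`h ∘ r = 0` for all `h ∈ H`; by `hsep` `r = 0` on `𝒮`.  On the other hand every `r' ∈ 𝔸` maps `S1` to
`S1` and every `j ∈ J` maps `g0` into `S1` (`Submodule.span_induction`:
`(r' * gen) g0 = r' (gen g0)`).  So `g0 = - (r - 1) g0 ∈ S1`: contradiction. -/
theorem not_le_relSub (hcomm : ∀ i j, T i * T j = T j * T i)
    (H : Submodule A (𝒮 →ₗ[A] C)) (hfg : H.FG)
    (hstab : ∀ i, ∀ h ∈ H, h.comp (T i) ∈ H)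
    (hsep : ∀ f : 𝒮, (∀ h ∈ H, h f = 0) → f = 0)
    (S1 : Submodule A 𝒮) (h1 : ∀ i, ∀ f ∈ S1, T i f ∈ S1)
    (g0 : 𝒮) (hm : ∀ a : A, φ a = 0 → a • g0 ∈ S1) (hg1 : g0 ∉ S1)
    (heig : ∀ i, T i g0 - t i • g0 ∈ S1) :
    ¬ H ≤ relSub φ T t H := by
  classical
  intro hle
  have hs : ∀ a ∈ Set.range T, ∀ b ∈ Set.range T, a * b = b * a := by
    rintro _ ⟨i, rfl⟩ _ ⟨j, rfl⟩
    exact hcomm i j
  let _ : CommRing (Algebra.adjoin A (Set.range T)) := Algebra.adjoinCommRingOfComm A hs
  let ρ : Algebra.adjoin A (Set.range T) →+* Module.End A 𝒮 :=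
    { toFun := Subtype.val
      map_one' := rfl
      map_mul' := fun _ _ => rfl
      map_zero' := rfl
      map_add' := fun _ _ => rfl }
  let c : A →+* Algebra.adjoin A (Set.range T) :=
    { toFun := fun a => ⟨algebraMap A _ a, Subalgebra.algebraMap_mem _ a⟩
      map_one' := Subtype.ext (map_one _)
      map_mul' := fun _ _ => Subtype.ext (map_mul _ _ _)
      map_zero' := Subtype.ext (map_zero _)
      map_add' := fun _ _ => Subtype.ext (map_add _ _ _) }
  have hc : ∀ a, ρ (c a) = algebraMap A (Module.End A 𝒮) a := fun _ => rfl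
  let τ : I → Algebra.adjoin A (Set.range T) := fun i => ⟨T i, Algebra.subset_adjoin ⟨i, rfl⟩⟩
  have hτ : ∀ i, ρ (τ i) = T i := fun _ => rfl
  have hstab' : ∀ b : Algebra.adjoin A (Set.range T), ∀ h ∈ H, h.comp (ρ b) ∈ H := by
    rintro ⟨b, hb⟩
    show ∀ h ∈ H, h.comp b ∈ H
    induction hb using Algebra.adjoin_induction with
    | mem x hx =>
      obtain ⟨i, rfl⟩ := hx
      exact hstab i
    | algebraMap a =>
      intro h hh
      have : h.comp (algebraMap A (Module.End A 𝒮) a) = a • h := by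
        ext f
        simp
      rw [this]
      exact H.smul_mem a hh
    | add x y _ _ hx hy =>
      intro h hh
      rw [LinearMap.comp_add]
      exact H.add_mem (hx h hh) (hy h hh)
    | mul x y _ _ hx hy =>
      intro h hh
      rw [Module.End.mul_eq_comp, ← LinearMap.comp_assoc]
      exact hy _ (hx h hh)
  have hS1 : ∀ b : Algebra.adjoin A (Set.range T), ∀ f ∈ S1, ρ b f ∈ S1 := by
    rintro ⟨b, hb⟩
    show ∀ f ∈ S1, b f ∈ S1
    induction hb using Algebra.adjoin_induction with
    | mem x hx =>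
      obtain ⟨i, rfl⟩ := hx
      exact h1 i
    | algebraMap a =>
      intro f hf
      rw [Module.algebraMap_end_apply]
      exact S1.smul_mem a hf
    | add x y _ _ hx hy =>
      intro f hf
      rw [LinearMap.add_apply]
      exact S1.add_mem (hx f hf) (hy f hf)
    | mul x y _ _ hx hy =>
      intro f hf
      rw [Module.End.mul_apply]
      exact hx _ (hy f hf)
  let J : Ideal (Algebra.adjoin A (Set.range T)) :=
    Ideal.span ({x | ∃ a, φ a = 0 ∧ x = c a} ∪ {x | ∃ i, x = τ i - c (t i)})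
  have hJ : ∀ j ∈ J, ρ j g0 ∈ S1 := by
    intro j hj
    induction hj using Submodule.span_induction with
    | mem x hx =>
      rcases hx with ⟨a, ha, rfl⟩ | ⟨i, rfl⟩
      · rw [hc, Module.algebraMap_end_apply]
        exact hm a ha
      · rw [map_sub, hc, hτ, LinearMap.sub_apply, Module.algebraMap_end_apply]
        exact heig i
    | zero =>
      rw [map_zero, LinearMap.zero_apply]
      exact S1.zero_mem
    | add x y _ _ hx hy =>
      rw [map_add, LinearMap.add_apply]
      exact S1.add_mem hx hy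
    | smul b x _ hx =>
      rw [smul_eq_mul, map_mul, Module.End.mul_apply]
      exact hS1 b _ hx
  obtain ⟨r, hr1, hr2⟩ := Abs_nakayama ρ c hc H hfg hstab' J (by
    intro h hh
    refine Submodule.span_mono ?_ (hle hh)
    rintro x (⟨a, h', hh', ha, rfl⟩ | ⟨i, h', hh', rfl⟩)
    · refine ⟨c a, Ideal.subset_span (Or.inl ⟨a, ha, rfl⟩), h', hh', ?_⟩
      rw [hc]
      ext f
      simp
    · refine ⟨τ i - c (t i), Ideal.subset_span (Or.inr ⟨i, rfl⟩), h', hh', ?_⟩
      rw [map_sub, hc, hτ]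
      ext f
      simp)
  have hr0 : ρ r g0 = 0 := hsep _ fun h hh => by
    have := congrArg (fun L : 𝒮 →ₗ[A] C => L g0) (hr2 h hh)
    simpa using this
  have h3 := hJ _ hr1
  rw [map_sub, map_one, LinearMap.sub_apply, hr0, zero_sub, Module.End.one_apply] at h3
  exact hg1 ((Submodule.neg_mem_iff _).1 h3)

/-- a nonzero semilinear functional on `H / Y`.
PROOF. `Q' := H ⧸ Y.comap H.subtype` is killed by `ker φ`, so it is an `F`-vector space
(`SMul F Q' := ⟨fun c q => (hφ c).choose • q⟩`, `Function.Surjective.moduleLeft`); it is nonzero;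
`Module.forall_dual_apply_eq_zero_iff` gives a functional which does not vanish at a given nonzero
vector. -/
theorem exists_functional (hφ : Function.Surjective φ) {Q : Type*} [AddCommGroup Q] [Module A Q]
    (H Y : Submodule A Q) (hY : ∀ a : A, φ a = 0 → ∀ h ∈ H, a • h ∈ Y) (hne : ¬ H ≤ Y) :
    ∃ x : H →+ F, (∀ (a : A) (h : H), x (a • h) = φ a * x h) ∧
      (∀ h : H, (h : Q) ∈ Y → x h = 0) ∧ ∃ h : H, x h ≠ 0 := by
  classical
  have hkill : ∀ (a : A) (q : H ⧸ Y.comap H.subtype), φ a = 0 → a • q = 0 := by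
    intro a q ha
    obtain ⟨h, rfl⟩ := Submodule.Quotient.mk_surjective _ q
    rw [← Submodule.Quotient.mk_smul, Submodule.Quotient.mk_eq_zero]
    exact hY a ha h h.2
  let _ : SMul F (H ⧸ Y.comap H.subtype) := ⟨fun c q => (hφ c).choose • q⟩
  have hsm : ∀ (a : A) (q : H ⧸ Y.comap H.subtype), φ a • q = a • q := by
    intro a q
    show (hφ (φ a)).choose • q = a • q
    rw [← sub_eq_zero, ← sub_smul]
    exact hkill _ _ (by rw [map_sub, (hφ (φ a)).choose_spec, sub_self])
  let _ : Module F (H ⧸ Y.comap H.subtype) := Function.Surjective.moduleLeft φ hφ hsm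
  obtain ⟨h0, hh0, hh0'⟩ := SetLike.not_le_iff_exists.1 hne
  have hq0 : (Submodule.Quotient.mk ⟨h0, hh0⟩ : H ⧸ Y.comap H.subtype) ≠ 0 := by
    rw [Ne, Submodule.Quotient.mk_eq_zero]
    exact hh0'
  obtain ⟨f, hf⟩ : ∃ f : Module.Dual F (H ⧸ Y.comap H.subtype),
      f (Submodule.Quotient.mk ⟨h0, hh0⟩) ≠ 0 := by
    by_contra hcon
    push Not at hcon
    exact hq0 ((Module.forall_dual_apply_eq_zero_iff F _).1 hcon)
  refine ⟨f.toAddMonoidHom.comp ((Y.comap H.subtype).mkQ.toAddMonoidHom), ?_, ?_,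
    ⟨⟨h0, hh0⟩, hf⟩⟩
  · intro a h
    show f (Submodule.Quotient.mk (a • h)) = _
    rw [Submodule.Quotient.mk_smul, ← hsm, map_smul, smul_eq_mul]
    rfl
  · intro h hh
    show f (Submodule.Quotient.mk h) = 0
    have : (Submodule.Quotient.mk h : H ⧸ Y.comap H.subtype) = 0 :=
      (Submodule.Quotient.mk_eq_zero _).2 hh
    rw [this, map_zero]

/-- **The abstract nonvanishing lemma.**  [`not_le_relSub` and `exists_functional` with
`H = span (range e)`, `Y = relSub`; `hstab` extends from the generators to `H` by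
`Submodule.span_induction`; a semilinear functional which vanishes on the generators vanishes.] -/
theorem exists_eigen_functional (hφ : Function.Surjective φ)
    (hcomm : ∀ i j, T i * T j = T j * T i) {G : Type*} (e : G → 𝒮 →ₗ[A] C)
    (hfg : (Submodule.span A (Set.range e)).FG)
    (hstab : ∀ i γ, (e γ).comp (T i) ∈ Submodule.span A (Set.range e))
    (hsep : ∀ f : 𝒮, (∀ γ, e γ f = 0) → f = 0)
    (S1 : Submodule A 𝒮) (h1 : ∀ i, ∀ f ∈ S1, T i f ∈ S1)
    (g0 : 𝒮) (hm : ∀ a : A, φ a = 0 → a • g0 ∈ S1) (hg1 : g0 ∉ S1)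
    (heig : ∀ i, T i g0 - t i • g0 ∈ S1) :
    ∃ x : Submodule.span A (Set.range e) →+ F,
      (∀ (a : A) (h : Submodule.span A (Set.range e)), x (a • h) = φ a * x h) ∧
      (∀ (i : I) (h h' : Submodule.span A (Set.range e)),
        (h' : 𝒮 →ₗ[A] C) = (h : 𝒮 →ₗ[A] C).comp (T i) → x h' = φ (t i) * x h) ∧
      ∃ γ, x ⟨e γ, Submodule.subset_span ⟨γ, rfl⟩⟩ ≠ 0 := by
  classical
  have hstab' : ∀ i, ∀ h ∈ Submodule.span A (Set.range e),
      h.comp (T i) ∈ Submodule.span A (Set.range e) := by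
    intro i h hh
    induction hh using Submodule.span_induction with
    | mem x hx =>
      obtain ⟨γ, rfl⟩ := hx
      exact hstab i γ
    | zero =>
      rw [LinearMap.zero_comp]
      exact Submodule.zero_mem _
    | add x y _ _ hx hy =>
      rw [LinearMap.add_comp]
      exact Submodule.add_mem _ hx hy
    | smul a x _ hx =>
      rw [LinearMap.smul_comp]
      exact Submodule.smul_mem _ a hx
  have hne := not_le_relSub φ T t hcomm (Submodule.span A (Set.range e)) hfg hstab'
    (fun f hf => hsep f fun γ => hf _ (Submodule.subset_span ⟨γ, rfl⟩)) S1 h1 g0 hm hg1 heig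
  obtain ⟨x, hx1, hx2, h0, hx3⟩ := exists_functional φ hφ (Submodule.span A (Set.range e))
    (relSub φ T t (Submodule.span A (Set.range e)))
    (fun a ha h hh => Submodule.subset_span (Or.inl ⟨a, h, hh, ha, rfl⟩)) hne
  refine ⟨x, hx1, ?_, ?_⟩
  · intro i h h' hh'
    have h2 : x (h' - t i • h) = 0 := by
      apply hx2
      rw [Submodule.coe_sub, Submodule.coe_smul, hh']
      exact Submodule.subset_span (Or.inr ⟨i, h, h.2, rfl⟩)
    rw [map_sub, hx1, sub_eq_zero] at h2
    exact h2
  · by_contra hcon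
    push Not at hcon
    apply hx3
    clear hx3
    obtain ⟨h0, hh0⟩ := h0
    induction hh0 using Submodule.span_induction with
    | mem y hy =>
      obtain ⟨γ, rfl⟩ := hy
      exact hcon γ
    | zero => exact map_zero x
    | add y z hy hz iy iz =>
      have : (⟨y + z, Submodule.add_mem _ hy hz⟩ : Submodule.span A (Set.range e)) =
          ⟨y, hy⟩ + ⟨z, hz⟩ := rfl
      rw [this, map_add, iy, iz, add_zero]
    | smul a y hy iy =>
      have : (⟨a • y, Submodule.smul_mem _ a hy⟩ : Submodule.span A (Set.range e)) =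
          a • ⟨y, hy⟩ := rfl
      rw [this, hx1, iy, mul_zero]

end Fermat.Agent.S48.Per
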