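import Mathlib

/-!
# S48-PER: `Γ₁(M)` is finitely generated
-/

set_option autoImplicit false

open CongruenceSubgroup Matrix.SpecialLinearGroup
open scoped MatrixGroups

namespace Fermat.Agent.S48.Per

theorem FG_fg_SL2Z : Group.FG SL(2, ℤ) := by
  rw [Group.fg_iff]
  exact ⟨{ModularGroup.S, ModularGroup.T}, _root_.SpecialLinearGroup.SL2Z_generators,
    Set.toFinite _⟩

/-- [`SL₂(ℤ)` is generated by `S`, `T` (Mathlib: `Matrix.SpecialLinearGroup.SL2Z_generators`), a
subgroup of finite index of a finitely generated group is finitely generated
(`Subgroup.fg_of_index_ne_zero`), `Γ₁(M)` has finite index for `M ≠ 0`.] -/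
theorem fg_Gamma1 (M : ℕ) [NeZero M] : Group.FG (Gamma1 M) := by
  have := FG_fg_SL2Z
  exact Subgroup.fg_of_index_ne_zero (Gamma1 M)

/-- a homomorphism from a finitely generated group to a module: the span of the image is finitely
generated. -/
theorem span_range_fg {G : Type*} [Group G] [Group.FG G] {A : Type*} [CommRing A] {D : Type*}
    [AddCommGroup D] [Module A D] (e : G → D) (hmul : ∀ a b, e (a * b) = e a + e b) :
    (Submodule.span A (Set.range e)).FG := by
  obtain ⟨S, hS, hfin⟩ := Group.fg_iff.mp (inferInstance : Group.FG G)
  have h1 : e 1 = 0 := by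
    have := hmul 1 1
    rw [mul_one] at this
    exact left_eq_add.mp this
  have hinv : ∀ g, e g⁻¹ = - e g := by
    intro g
    have := hmul g g⁻¹
    rw [mul_inv_cancel, h1] at this
    exact (neg_eq_of_add_eq_zero_right this.symm).symm
  have key : Submodule.span A (Set.range e) = Submodule.span A (e '' S) := by
    apply le_antisymm
    · rw [Submodule.span_le]
      rintro _ ⟨g, rfl⟩
      have hg : g ∈ Subgroup.closure S := by rw [hS]; trivial
      induction hg using Subgroup.closure_induction with
      | mem x hx => exact Submodule.subset_span ⟨x, hx, rfl⟩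
      | one => rw [h1]; exact Submodule.zero_mem _
      | mul x y _ _ hx hy => rw [hmul]; exact Submodule.add_mem _ hx hy
      | inv x _ hx => rw [hinv]; exact Submodule.neg_mem _ hx
    · exact Submodule.span_mono (Set.image_subset_range e S)
  rw [key]
  exact Submodule.fg_span (hfin.image e)

end Fermat.Agent.S48.Per
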