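import Fermat.Agent.S48.Per.Int
import Fermat.Agent.S48.Per.FG
import Fermat.Agent.S48.Per.Abs

/-!
# S48-PER: the export `NonvanStatement`
-/

set_option autoImplicit false

open CongruenceSubgroup Matrix.SpecialLinearGroup UpperHalfPlane ModularFormClass
  Fermat.Agent.G1.B
open scoped MatrixGroups ModularForm

namespace Fermat.Agent.S48.Per

set_option maxHeartbeats 1000000 in
theorem nonvan : NonvanStatement := by
  intro M _ g χ ι b t ℓ Λ _ _ hneb hb hbΛ hbne ht heig
  let g0 : S2chi M (chiC ι χ) := ⟨g, hneb⟩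
  have := fg_Gamma1 M
  let e : Gamma1 M → (S2chi M (chiC ι χ)) →ₗ[R0 ι Λ] ℂ :=
    fun γ => (ev (chiC ι χ) γ).restrictScalars (R0 ι Λ)
  have he_mul : ∀ a b, e (a * b) = e a + e b := by
    intro a b
    ext1 f
    exact congrArg (fun T : Module.Dual ℂ (S2chi M (chiC ι χ)) => T f) (ev_mul (chiC ι χ) a b)
  have he_comp : ∀ (i : PrimeIdx M) (γ : Gamma1 M),
      (e γ).comp ((Tchi (chiC ι χ) i).restrictScalars (R0 ι Λ)) =
        (haveI : Fact i.1.Prime := ⟨i.2.1⟩
         ∑ x, e ((repsT1 i.1 i.2.2).coc γ x)) := by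
    intro i γ
    ext1 f
    have := congrArg (fun T : Module.Dual ℂ (S2chi M (chiC ι χ)) => T f)
      (ev_comp_Tchi (chiC ι χ) i γ)
    simp only [LinearMap.coe_comp, Function.comp_apply, LinearMap.coe_sum, Finset.sum_apply] at this
    simp only [LinearMap.coe_comp, Function.comp_apply, LinearMap.coe_sum, Finset.sum_apply, e,
      LinearMap.coe_restrictScalars]
    exact this
  obtain ⟨x, hx1, hx2, γ0, hx3⟩ := exists_eigen_functional (phi0 ι Λ)
    (fun i : PrimeIdx M => (Tchi (chiC ι χ) i).restrictScalars (R0 ι Λ))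
    (fun i => (⟨ι (t i.1), map_mem_R0 ι (ht i.1)⟩ : R0 ι Λ)) (phi0_surjective ι Λ)
    (by
      intro i j
      ext1 f
      exact congrArg (fun T : Module.End ℂ (S2chi M (chiC ι χ)) => T f) (Tchi_comm (chiC ι χ) i j))
    e (span_range_fg _ he_mul)
    (by
      intro i γ
      rw [he_comp]
      exact Submodule.sum_mem _ fun x _ => Submodule.subset_span ⟨_, rfl⟩)
    (fun f hf => eq_zero_of_ev (chiC ι χ) f hf)
    (S1 ι Λ χ) (fun i f hf => Tchi_mem_S1 ι Λ χ i hf) g0
    (fun a ha => smul_mem_S1 (g := g0) hb hbΛ ha) (not_mem_S1 (g := g0) hb hbne)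
    (fun i => eig_mem_S1 (g := g0) hb ht heig i)
  -- the homomorphism
  let E : Gamma1 M → Submodule.span (R0 ι Λ) (Set.range e) :=
    fun γ => ⟨e γ, Submodule.subset_span ⟨γ, rfl⟩⟩
  have hE_mul : ∀ a b, E (a * b) = E a + E b := fun a b => Subtype.ext (he_mul a b)
  have hE_one : E 1 = 0 := by
    have := hE_mul 1 1
    rw [mul_one] at this
    simpa using this
  let X : Additive (Gamma1 M) →+ kk Λ :=
    { toFun := fun γ => x (E (Additive.toMul γ))
      map_zero' := by
        show x (E 1) = 0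
        rw [hE_one, map_zero]
      map_add' := by
        intro a b
        show x (E (Additive.toMul a * Additive.toMul b)) = _
        rw [hE_mul, map_add] }
  have hX : ∀ γ : Gamma1 M, X (Additive.ofMul γ) = x (E γ) := fun _ => rfl
  refine ⟨X, ?_, ?_, ?_, ?_⟩
  · intro h0
    apply hx3
    have := congrArg (fun T : Additive (Gamma1 M) →+ kk Λ => T (Additive.ofMul γ0)) h0
    exact this
  · intro γ hγ
    rw [hX]
    have h0 : e γ = 0 := by
      show (ev (chiC ι χ) γ).restrictScalars (R0 ι Λ) = 0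
      rw [ev_eq_zero_of_kills (chiC ι χ) γ hγ]
      rfl
    have : E γ = 0 := Subtype.ext h0
    rw [this, map_zero]
  · intro p _ hpM
    refine AddMonoidHom.ext fun γ => ?_
    induction γ using Additive.rec with
    | ofMul γ =>
      rw [Reps1.op_apply, AddMonoidHom.smul_apply, hX, smul_eq_mul]
      simp only [hX]
      rw [← map_sum]
      have h2 := hx2 ⟨p, Fact.out, hpM⟩ (E γ) (∑ i, E ((repsT1 p hpM).coc γ i)) (by
        rw [he_comp ⟨p, Fact.out, hpM⟩ γ]
        simp [E])
      rw [h2, phi0_mk ι (ht p)]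
  · intro σ hσ γ γ' h
    rw [hX, hX]
    have h1 : E γ' = (⟨ι (χ ((σ 1 1 : ℤ) : ZMod M)), map_mem_R0 ι (dirichlet_mem Λ χ _)⟩ : R0 ι Λ) • E γ := by
      apply Subtype.ext
      show (ev (chiC ι χ) γ').restrictScalars (R0 ι Λ) = _
      rw [ev_conj (chiC ι χ) σ hσ γ γ' h]
      rfl
    rw [h1, hx1, phi0_mk ι (dirichlet_mem Λ χ _)]

end Fermat.Agent.S48.Per
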