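import Fermat.Agent.S48.Per.Eigen
import Fermat.Agent.S48.Per.Main

/-!
# S48-PER + G1-H: `G1MainStatement` from `CharTheory1` (G1-A/B) and `ModelExists` (G1-D)
-/

set_option autoImplicit false

namespace Fermat.Agent.S48.Per

open Fermat.Agent.G1 Fermat.Agent.G1.H

/-- the non-vanishing statement consumed by G1-H. -/
theorem eigenStatement : EigenStatement latV := eigenStatement_of_nonvan nonvan

/-- `G1MainStatement` from what is still open upstream. -/
theorem g1Main_of_charTheory' (T : ∀ (M : ℕ) [NeZero M], CharTheory1 M) (hD : E.ModelExists) :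
    G1MainStatement :=
  g1Main_of_charTheory T hD latV
    (fun M _ ℓ hℓ => haveI : Fact ℓ.Prime := ⟨hℓ⟩; latSpec M ℓ) eigenStatement

end Fermat.Agent.S48.Per
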