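import Mathlib

/-!
# S48-PER: vectors of `F ⊗[ℤ] V`, `V` an `𝔽_ℓ`-vector space with a basis (Mathlib only)
-/

set_option autoImplicit false

open scoped TensorProduct

namespace Fermat.Agent.S48.Per

variable {ℓ : ℕ} {F : Type*} [CommRing F] [Algebra (ZMod ℓ) F] {V : Type*} [AddCommGroup V]
  [Module (ZMod ℓ) V] {r : ℕ} (ψ : Module.Basis (Fin r) (ZMod ℓ) V)

/-- [`z = (n : ZMod ℓ)` (`ZMod.intCast_surjective`), `Int.cast_smul_eq_zsmul`,
`TensorProduct.tmul_smul`, `TensorProduct.smul_tmul'`, `zsmul_eq_mul`, `map_intCast`.] -/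
theorem tmul_zmod_smul (a : F) (z : ZMod ℓ) (v : V) :
    a ⊗ₜ[ℤ] (z • v) = (a * algebraMap (ZMod ℓ) F z) ⊗ₜ[ℤ] v := by
  obtain ⟨n, rfl⟩ := ZMod.intCast_surjective z
  rw [Int.cast_smul_eq_zsmul, TensorProduct.tmul_smul, TensorProduct.smul_tmul', map_intCast,
    zsmul_eq_mul, mul_comm]

/-- `∑ a_i ⊗ ψ_i`. -/
noncomputable def wvec (a : Fin r → F) : F ⊗[ℤ] V := ∑ i, a i ⊗ₜ[ℤ] ψ i

/-- the `i`-th coordinate `F ⊗[ℤ] V → F`, `a ⊗ v ↦ a * (ψ.repr v i)`. -/
noncomputable def wcoord (i : Fin r) : F ⊗[ℤ] V →ₗ[ℤ] F :=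
  TensorProduct.lift
    { toFun := fun a =>
        { toFun := fun v => a * algebraMap (ZMod ℓ) F (ψ.repr v i)
          map_add' := by
            intro v w
            simp [mul_add]
          map_smul' := by
            intro n v
            simp [← Int.cast_smul_eq_zsmul (ZMod ℓ) n v]
            ring }
      map_add' := by
        intro a b
        ext v
        simp [add_mul]
      map_smul' := by
        intro n a
        ext v
        simp [mul_assoc] }

theorem wcoord_tmul (i : Fin r) (a : F) (v : V) :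
    wcoord ψ i (a ⊗ₜ[ℤ] v) = a * algebraMap (ZMod ℓ) F (ψ.repr v i) := rfl

/-- [`map_sum`, `wcoord_tmul`, `Basis.repr_self`, `Finsupp.single_apply`, `Finset.sum_ite_eq`.] -/
theorem wcoord_wvec (i : Fin r) (a : Fin r → F) : wcoord ψ i (wvec ψ a) = a i := by
  rw [wvec, map_sum]
  simp only [wcoord_tmul, Module.Basis.repr_self, Finsupp.single_apply]
  rw [Finset.sum_eq_single i]
  · simp
  · intro j _ hj
    simp [hj]
  · intro h
    exact absurd (Finset.mem_univ i) h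

theorem wvec_ne_zero {a : Fin r → F} (ha : a ≠ 0) : wvec ψ a ≠ 0 := by
  intro h
  apply ha
  funext i
  rw [← wcoord_wvec ψ i a, h, map_zero, Pi.zero_apply]

/-- [`map_sum`, `LinearMap.baseChange_tmul`; `f (ψ i) = ∑ j, ψ.repr (f (ψ i)) j • ψ j`
(`Basis.sum_repr`); `TensorProduct.tmul_sum`, `tmul_zmod_smul`, `Finset.sum_comm`,
`TensorProduct.sum_tmul`, `h`, `Finset.smul_sum`, `TensorProduct.smul_tmul'`, `smul_eq_mul`.] -/
theorem baseChange_wvec (f : Module.End (ZMod ℓ) V) (a : Fin r → F) (c : F)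
    (h : ∀ j, ∑ i, a i * algebraMap (ZMod ℓ) F (ψ.repr (f (ψ i)) j) = c * a j) :
    (f.restrictScalars ℤ).baseChange F (wvec ψ a) = c • wvec ψ a := by
  rw [wvec, map_sum, Finset.smul_sum]
  have h1 : ∀ i, (f.restrictScalars ℤ).baseChange F (a i ⊗ₜ[ℤ] ψ i) =
      ∑ j, (a i * algebraMap (ZMod ℓ) F (ψ.repr (f (ψ i)) j)) ⊗ₜ[ℤ] ψ j := by
    intro i
    rw [LinearMap.baseChange_tmul, LinearMap.restrictScalars_apply]
    conv_lhs => rw [← ψ.sum_repr (f (ψ i))]
    rw [TensorProduct.tmul_sum]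
    exact Finset.sum_congr rfl fun j _ => tmul_zmod_smul _ _ _
  simp only [h1]
  rw [Finset.sum_comm]
  refine Finset.sum_congr rfl fun j _ => ?_
  rw [← TensorProduct.sum_tmul, h j, TensorProduct.smul_tmul', smul_eq_mul]

end Fermat.Agent.S48.Per
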