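import Fermat.Agent.S48.Per.LatMod
import Fermat.Agent.S48.Per.WVec
import Fermat.Agent.G1.H.Res

/-!
# S48-PER: from a nonzero eigen-homomorphism `Γ₁(M) → k_Λ` to `G1.H.HasEigen M (latMod M ℓ) Λ t d`
-/

set_option autoImplicit false

open CongruenceSubgroup Matrix.SpecialLinearGroup UpperHalfPlane Fermat.Agent.G1.B
open scoped MatrixGroups TensorProduct

namespace Fermat.Agent.S48.Per

variable {M ℓ : ℕ} [NeZero M] [Fact ℓ.Prime]

/-- [`G1.H.natCast_kk_eq_zero`, `CharP.charP_iff_prime_eq_zero`.] -/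
theorem charP_kk (Λ : ValuationSubring Qb) (hΛ : Λ.LiesOverPrime ℓ) : CharP (kk Λ) ℓ := by
  have hp : ℓ.Prime := Fact.out
  exact (CharP.charP_iff_prime_eq_zero hp).2 (G1.H.natCast_kk_eq_zero Λ hΛ)

/-- dual elements of the basis `basl`. -/
noncomputable def dualG (M ℓ : ℕ) [NeZero M] [Fact ℓ.Prime] : Fin (rkl M ℓ) → Gamma1 M :=
  (exists_dual (basl M ℓ)).choose

theorem basl_dualG (i j : Fin (rkl M ℓ)) :
    ((basl M ℓ i : Vl M ℓ) : Additive (Gamma1 M) →+ ZMod ℓ) (Additive.ofMul (dualG M ℓ j)) =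
      if i = j then 1 else 0 :=
  (exists_dual (basl M ℓ)).choose_spec i j

/-- [`v = ∑ i, repr v i • basl i` (`Basis.sum_repr`), evaluate at `dualG j` with `basl_dualG`.] -/
theorem repr_eq_apply_dualG (v : Vl M ℓ) (j : Fin (rkl M ℓ)) :
    (basl M ℓ).repr v j = (v : Additive (Gamma1 M) →+ ZMod ℓ) (Additive.ofMul (dualG M ℓ j)) := by
  conv_rhs => rw [← (basl M ℓ).sum_repr v]
  rw [Submodule.coe_sum, AddMonoidHom.finsetSum_apply]
  simp only [Submodule.coe_smul, AddMonoidHom.smul_apply, basl_dualG]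
  rw [Finset.sum_eq_single j]
  · simp
  · intro b _ hb
    simp [hb]
  · intro hj
    exact absurd (Finset.mem_univ j) hj

section field

variable {F : Type} [Field F] [Algebra (ZMod ℓ) F]

/-- the expansion of `x` in the basis `basl`.  [`eq_sum_of_forall_comp_mem (basl M ℓ) basl_dualG`;
`lam ∘ x` kills what `x` kills.] -/
theorem hom_eq_sum (x : Additive (Gamma1 M) →+ F) (hk : Kills1 x) (γ : Additive (Gamma1 M)) :
    x γ = ∑ i, x (Additive.ofMul (dualG M ℓ i)) *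
      algebraMap (ZMod ℓ) F (((basl M ℓ i : Vl M ℓ) : Additive (Gamma1 M) →+ ZMod ℓ) γ) := by
  refine eq_sum_of_forall_comp_mem (basl M ℓ) basl_dualG x (fun lam => ?_) γ
  rw [mem_Vl]
  intro δ hδ
  rw [AddMonoidHom.comp_apply, hk δ hδ, map_zero]

/-- [`Reps1.op_apply`, `hom_eq_sum` at each `coc γ k`, `Finset.sum_comm`, `map_sum`.] -/
theorem op_eq_sum (H : Reps1 M) (x : Additive (Gamma1 M) →+ F) (hk : Kills1 x) (γ : Gamma1 M) :
    H.op F x (Additive.ofMul γ) = ∑ i, x (Additive.ofMul (dualG M ℓ i)) *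
      algebraMap (ZMod ℓ) F (H.op (ZMod ℓ)
        ((basl M ℓ i : Vl M ℓ) : Additive (Gamma1 M) →+ ZMod ℓ) (Additive.ofMul γ)) := by
  rw [Reps1.op_apply]
  simp only [Reps1.op_apply, map_sum, Finset.mul_sum]
  rw [Finset.sum_comm]
  exact Finset.sum_congr rfl fun k _ => hom_eq_sum x hk _

/-- [`repr_eq_apply_dualG`, `coe_opV`, `op_eq_sum` at `dualG j`, `h`.] -/
theorem sum_repr_of_eigen (H : Reps1 M) (x : Additive (Gamma1 M) →+ F) (hk : Kills1 x) (c : F)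
    (h : H.op F x = c • x) (j : Fin (rkl M ℓ)) :
    ∑ i, x (Additive.ofMul (dualG M ℓ i)) *
        algebraMap (ZMod ℓ) F ((basl M ℓ).repr (opV M ℓ H (basl M ℓ i)) j) =
      c * x (Additive.ofMul (dualG M ℓ j)) := by
  have h1 := op_eq_sum (ℓ := ℓ) H x hk (dualG M ℓ j)
  rw [h, AddMonoidHom.smul_apply, smul_eq_mul] at h1
  rw [h1]
  refine Finset.sum_congr rfl fun i _ => ?_
  rw [repr_eq_apply_dualG, coe_opV]

/-- [`hom_eq_sum`.] -/
theorem dualG_ne_zero (x : Additive (Gamma1 M) →+ F) (hk : Kills1 x) (hx : x ≠ 0) :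
    (fun i => x (Additive.ofMul (dualG M ℓ i))) ≠ 0 := by
  intro h0
  apply hx
  refine AddMonoidHom.ext fun γ => ?_
  rw [hom_eq_sum (ℓ := ℓ) x hk γ]
  refine Finset.sum_eq_zero fun i _ => ?_
  rw [show x (Additive.ofMul (dualG M ℓ i)) = 0 from congrFun h0 i, zero_mul]

end field

/-- **from homomorphisms to the tensor product.** -/
theorem hasEigen_of_hom (Λ : ValuationSubring Qb) (hΛ : Λ.LiesOverPrime ℓ) (t d : ℕ → Qb)
    (x : Additive (Gamma1 M) →+ kk Λ) (hx : x ≠ 0) (hk : Kills1 x)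
    (hT : ∀ (p : ℕ) [Fact p.Prime] (hpM : ¬ p ∣ M), (repsT1 p hpM).op (kk Λ) x = res Λ (t p) • x)
    (hD : ∀ (p : ℕ) [Fact p.Prime] (hpM : ¬ p ∣ M), (repsD p hpM).op (kk Λ) x = res Λ (d p) • x) :
    G1.H.HasEigen M (latMod M ℓ) Λ t d := by
  have := charP_kk Λ hΛ
  let _ : Algebra (ZMod ℓ) (kk Λ) := ZMod.algebra (kk Λ) ℓ
  refine ⟨(wvec (basl M ℓ) (fun i => x (Additive.ofMul (dualG M ℓ i))) : kk Λ ⊗[ℤ] Vl M ℓ),
    wvec_ne_zero _ (dualG_ne_zero x hk hx), fun p hp hpM => ?_⟩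
  have : Fact p.Prime := ⟨hp⟩
  rw [latMod_T M ℓ p hpM, latMod_D M ℓ p hpM]
  exact ⟨baseChange_wvec (basl M ℓ) (opV M ℓ (repsT1 p hpM)) _ _
      (sum_repr_of_eigen _ x hk _ (hT p hpM)),
    baseChange_wvec (basl M ℓ) (opV M ℓ (repsD p hpM)) _ _
      (sum_repr_of_eigen _ x hk _ (hD p hpM))⟩

/-- **Export of S48-PER for G1-H.** -/
theorem eigenStatement_of_nonvan (H : NonvanStatement) : G1.H.EigenStatement latV := by
  intro M _ g χ ι b t ℓ Λ hℓ hΛ hneb hb hbΛ hb0 ht hcong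
  have : Fact ℓ.Prime := ⟨hℓ⟩
  rw [latV_eq]
  obtain ⟨x, hx, hk, hT, hD⟩ := H M g χ ι b t ℓ Λ hℓ hΛ hneb hb hbΛ hb0 ht hcong
  refine hasEigen_of_hom Λ hΛ t _ x hx hk hT (fun p _ hpM => ?_)
  refine AddMonoidHom.ext fun γ => ?_
  induction γ using Additive.rec with
  | ofMul γ =>
    rw [repsD, repsConj_op_apply, hD _ (sigmaP_mem M p hpM) γ _ rfl, sigmaP_entry]
    rfl

end Fermat.Agent.S48.Per
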