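import Fermat.Agent.S48.Per.Prim
import Fermat.Agent.GR.B.Period

/-!
# S48-PER: the period map is equivariant

PORT of `Fermat/Agent/GR/B/Period.lean` (`periodMap_of_reps`); `GR.B.hasDerivAt_comp_GL_smul` is
imported.
-/

set_option autoImplicit false

open CongruenceSubgroup Matrix.SpecialLinearGroup UpperHalfPlane Fermat.Agent.G1.B
open scoped MatrixGroups ModularForm

namespace Fermat.Agent.S48.Per

variable {M : ℕ} [NeZero M]

/-- port of `GR.B.periodMap_of_reps`. -/
theorem per_of_reps (H : Reps1 M) (f g : CuspForm (Gamma1 M) 2)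
    (hg : ⇑g = ∑ i, ⇑f ∣[(2 : ℤ)] H.α i) : per g = H.op ℂ (per f) := by
  have hF := isPrim1_prim f
  have hF' := isPrim1_prim g
  -- `G z = ∑ i, F (α i z)` is another primitive of `g`
  have hz : ∀ τ : ℍ,
      HasDerivAt ((fun w : ℍ => prim g w - ∑ i, prim f (H.α i • w)) ∘ ofComplex) 0 ↑τ := by
    intro τ
    have h1 : HasDerivAt ((fun w : ℍ => ∑ i, prim f (H.α i • w)) ∘ ofComplex) (g τ) ↑τ := by
      have h2 := HasDerivAt.fun_sum (u := Finset.univ)
        (fun i _ => GR.B.hasDerivAt_comp_GL_smul hF.deriv (H.α i) (H.det_pos i) τ)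
      have h3 : g τ = ∑ i, (⇑f ∣[(2 : ℤ)] H.α i) τ := by
        rw [hg, Finset.sum_apply]
      rw [h3]
      exact h2
    have h2 := (hF'.deriv τ).sub h1
    rw [sub_self] at h2
    exact h2
  refine AddMonoidHom.ext fun γ => ?_
  induction γ using Additive.rec with
  | ofMul γ =>
    have hc := S21.const_of_hasDerivAt_zero hz ((γ : SL(2, ℤ)) • I) I
    have hG : ∀ (γ : Gamma1 M) (z : ℍ),
        prim f ((γ : SL(2, ℤ)) • z) = prim f z + per f (Additive.ofMul γ) := by
      intro γ z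
      rw [per_apply f γ z]
      ring
    have hs := H.sum_comp_smul (per f) (prim f) hG γ I
    rw [per_apply g γ I]
    rw [hs] at hc
    linear_combination hc

/-- conjugation.  [`w ↦ prim f (σ w)` and `prim g` are two primitives of `g`, so they differ by a
constant; `σ (γ z) = γ' (σ z)`.] -/
theorem per_of_conj (σ : SL(2, ℤ)) (f g : CuspForm (Gamma1 M) 2) (hg : ⇑g = ⇑f ∣[(2 : ℤ)] σ)
    (γ γ' : Gamma1 M) (h : (γ' : SL(2, ℤ)) = σ * γ * σ⁻¹) :
    per g (Additive.ofMul γ) = per f (Additive.ofMul γ') := by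
  have hF := isPrim1_prim f
  have hF' := isPrim1_prim g
  have hz : ∀ τ : ℍ,
      HasDerivAt ((fun w : ℍ => prim g w - prim f (σ • w)) ∘ ofComplex) 0 ↑τ := by
    intro τ
    have h1 := S21.hasDerivAt_comp_smul hF.deriv σ τ
    rw [← hg] at h1
    have h2 := (hF'.deriv τ).sub h1
    rw [sub_self] at h2
    exact h2
  have hc := S21.const_of_hasDerivAt_zero hz ((γ : SL(2, ℤ)) • I) I
  have he : σ • ((γ : SL(2, ℤ)) • I) = (γ' : SL(2, ℤ)) • (σ • I) := by
    rw [h, ← mul_smul, ← mul_smul, inv_mul_cancel_right]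
  rw [per_apply g γ I, per_apply f γ' (σ • I), ← he]
  linear_combination hc

end Fermat.Agent.S48.Per
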