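import Fermat.Agent.S48.Per.QExp
import Fermat.Prelude.Thm_CuspFormClass_isZeroAt_heckeT
import Fermat.Prelude.Thm_CuspFormClass_isZeroAt_heckeU
import Fermat.Prelude.Thm_ModularForm_mdifferentiable_heckeT
import Fermat.Prelude.Thm_ModularForm_mdifferentiable_heckeU
import Fermat.Prelude.Thm_ModularFormClass_qCoeff_heckeT
import Fermat.Prelude.Thm_ModularFormClass_qCoeff_heckeU
import Fermat.Prelude.Thm_ModularForm_periodic_heckeT_comp_ofComplex
import Fermat.Prelude.Thm_ModularForm_periodic_heckeU_comp_ofComplex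
import Fermat.Prelude.Thm_ModularForm_isBoundedAtImInfty_heckeT
import Fermat.Prelude.Thm_ModularForm_isBoundedAtImInfty_heckeU

/-!
# S48-PER: the Hecke operator `T_p` on `S₂(M, χ)`

`T_p^χ f = ∑_x f ∣ α_x = heckeU 2 p f + χ(p) • f ∣ heckeDiagMatrix p
        = (1 - χ(p)) • heckeU 2 p f + χ(p) • heckeT 2 p f`.

So holomorphy, vanishing at the cusps and the `q`-expansion all follow from the Prelude lemmas on
`heckeU`, `heckeT` (which hold for every arithmetic subgroup).  The only new computation is the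
behaviour under `Γ₀(M)`.
-/

set_option autoImplicit false

open CongruenceSubgroup Matrix.SpecialLinearGroup UpperHalfPlane ModularFormClass
  Fermat.Agent.G1.B ModularForm
open scoped MatrixGroups ModularForm
open P2MW.S_ModularForm_heckeT_slash_eq_self_of_mem_Gamma0.ModularForm.HeckeSlashInvariance

namespace Fermat.Agent.S48.Per

variable {M : ℕ} [NeZero M]

/-- the function `T_p^χ f`. -/
noncomputable def TchiFun (c : ℂ) (p : ℕ) (f : ℍ → ℂ) : ℍ → ℂ :=
  heckeU 2 p f + c • (f ∣[(2 : ℤ)] heckeDiagMatrix p)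

theorem TchiFun_eq (c : ℂ) (p : ℕ) (f : ℍ → ℂ) :
    TchiFun c p f = (1 - c) • heckeU 2 p f + c • heckeT 2 p f := by
  rw [TchiFun, heckeT_eq_heckeU_add, smul_add, sub_smul, one_smul]
  abel

/-- (a) the sum over the representatives of `repsT1`.
[`f ∣ (σ_p β_∞) = (f ∣ σ_p) ∣ β_∞ = χ(p) • f ∣ β_∞`; `heckeU_eq_sum_zmod`, `Fintype.sum_option` as in
the Prelude proof of `heckeT_eq_sum_onePoint`.] -/
theorem sum_slash_repsT1 (χ : DirichletCharacter ℂ M) (p : ℕ) [Fact p.Prime] (hpM : ¬ p ∣ M)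
    (f : ℍ → ℂ) (hf : HasNeb M 2 χ f) :
    ∑ x, f ∣[(2 : ℤ)] (repsT1 p hpM).α x = TchiFun (χ (p : ZMod M)) p f := by
  have hp0 : NeZero p := ⟨(Fact.out : p.Prime).ne_zero⟩
  rw [TchiFun, heckeU_eq_sum_zmod, add_comm]
  refine Eq.trans (Fintype.sum_option
    (fun x : OnePoint (ZMod p) => f ∣[(2 : ℤ)] (repsT1 p hpM).α x)) ?_
  congr 1
  · change f ∣[(2 : ℤ)] (mapGL ℝ (sigmaP M p hpM) * heckeDiagMatrix p) = _
    have h1 : f ∣[(2 : ℤ)] (mapGL ℝ (sigmaP M p hpM)) = χ (p : ZMod M) • f := by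
      rw [← sigmaP_entry M p hpM]
      exact hf _ (sigmaP_mem M p hpM)
    rw [SlashAction.slash_mul, h1, ModularForm.smul_slash, σ_heckeDiagMatrix]
    rfl
  · refine Finset.sum_congr rfl fun x _ => ?_
    change f ∣[(2 : ℤ)] (mapGL ℝ (1 : SL(2, ℤ)) * heckeMatrix p x.val) = _
    rw [map_one, one_mul]

theorem HeckeChi_SL_slash (f : ℍ → ℂ) (γ : SL(2, ℤ)) :
    f ∣[(2 : ℤ)] γ = f ∣[(2 : ℤ)] (mapGL ℝ γ) := rfl

omit [NeZero M] in
theorem HeckeChi_TchiFun_eq_sum (χ : DirichletCharacter ℂ M) (p : ℕ) [Fact p.Prime] (f : ℍ → ℂ) :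
    TchiFun (χ (p : ZMod M)) p f =
      ∑ x : OnePoint (ZMod p), χ ((upL p x : ℤ) : ZMod M) • f ∣[(2 : ℤ)] heckeRep p x := by
  unfold TchiFun
  rw [heckeU_eq_sum_zmod, add_comm]
  refine Eq.trans ?_ (Fintype.sum_option (fun x : OnePoint (ZMod p) ↦
    χ ((upL p x : ℤ) : ZMod M) • f ∣[(2 : ℤ)] heckeRep p x)).symm
  congr 1
  · show _ = χ (((p : ℤ) : ℤ) : ZMod M) • f ∣[(2 : ℤ)] heckeDiagMatrix p
    simp
  · refine Finset.sum_congr rfl fun j _ => ?_
    show _ = χ (((1 : ℤ) : ℤ) : ZMod M) • f ∣[(2 : ℤ)] heckeMatrix p j.val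
    simp

theorem HeckeChi_smul_slash_heckeRep (p : ℕ) (x : OnePoint (ZMod p)) (c : ℂ) (f : ℍ → ℂ) :
    (c • f) ∣[(2 : ℤ)] heckeRep p x = c • f ∣[(2 : ℤ)] heckeRep p x := by
  have hdet : 0 < ((heckeRep p x).det : ℝ) := by
    induction x using OnePoint.rec with
    | infty => exact ModularForm.det_heckeDiagMatrix_pos p
    | coe j => exact ModularForm.det_heckeMatrix_pos p _
  rw [ModularForm.smul_slash, UpperHalfPlane.σ, if_pos hdet]
  rfl

theorem HeckeChi_upL_mul_lowR (p : ℕ) (x : OnePoint (ZMod p)) : upL p x * lowR p x = p := by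
  induction x using OnePoint.rec with
  | infty => exact mul_one _
  | coe j => exact one_mul _

omit [NeZero M] in
theorem HeckeChi_chi_lowR_ne_zero (χ : DirichletCharacter ℂ M) {p : ℕ} [Fact p.Prime]
    (hpM : ¬ p ∣ M) (x : OnePoint (ZMod p)) : χ ((lowR p x : ℤ) : ZMod M) ≠ 0 := by
  have hu : IsUnit ((p : ℕ) : ZMod M) :=
    (ZMod.isUnit_iff_coprime p M).2 ((Nat.Prime.coprime_iff_not_dvd Fact.out).2 hpM)
  have h : IsUnit ((lowR p x : ℤ) : ZMod M) := by
    induction x using OnePoint.rec with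
    | infty =>
      show IsUnit (((1 : ℤ) : ℤ) : ZMod M)
      simp
    | coe j =>
      show IsUnit (((p : ℤ) : ℤ) : ZMod M)
      simpa using hu
  exact (h.map χ).ne_zero

omit [NeZero M] in
theorem HeckeChi_chi_rel (χ : DirichletCharacter ℂ M) {p : ℕ} [Fact p.Prime] (hpM : ¬ p ∣ M)
    {g g' : SL(2, ℤ)} {x x' : OnePoint (ZMod p)} (hg' : (M : ℤ) ∣ g' 1 0)
    (h : heckeRep p x * mapGL ℝ g = mapGL ℝ g' * heckeRep p x') :
    χ ((upL p x : ℤ) : ZMod M) * χ ((g' 1 1 : ℤ) : ZMod M) =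
      χ ((g 1 1 : ℤ) : ZMod M) * χ ((upL p x' : ℤ) : ZMod M) := by
  have e := congrArg χ (heckeRep_mul_entry (M := M) hg' h)
  have e1 := congrArg (fun n : ℤ => χ ((n : ℤ) : ZMod M)) (HeckeChi_upL_mul_lowR p x)
  have e2 := congrArg (fun n : ℤ => χ ((n : ℤ) : ZMod M)) (HeckeChi_upL_mul_lowR p x')
  simp only [Int.cast_mul, map_mul] at e e1 e2
  apply mul_right_cancel₀ (HeckeChi_chi_lowR_ne_zero χ hpM x)
  apply mul_right_cancel₀ (HeckeChi_chi_lowR_ne_zero χ hpM x')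
  linear_combination (-χ ((upL p x : ℤ) : ZMod M) * χ ((lowR p x : ℤ) : ZMod M)) * e +
    (χ ((lowR p x : ℤ) : ZMod M) * χ ((g 1 1 : ℤ) : ZMod M)) * (e1 - e2)

/-- (b) nebentypus of `T_p^χ f`.
[`TchiFun = ∑_x χ(upL x) • f ∣ β_x`, `β_x γ = γ' β_{x'}` (`heckeRep_mul`), `x ↦ x'` is a permutation
(`MulAction.toPerm (redMatrix p γ)`), `f ∣ γ' = χ(d γ') f` and
`χ(upL x) χ(d γ') = χ(d γ) χ(upL x')` by `heckeRep_mul_entry` (`upL x * lowR x = p`).] -/
theorem hasNeb_TchiFun (χ : DirichletCharacter ℂ M) (p : ℕ) [Fact p.Prime] (hpM : ¬ p ∣ M)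
    (f : ℍ → ℂ) (hf : HasNeb M 2 χ f) : HasNeb M 2 χ (TchiFun (χ (p : ZMod M)) p f) := by
  intro γ hγ
  have hcM : (M : ℤ) ∣ γ 1 0 :=
    (ZMod.intCast_zmod_eq_zero_iff_dvd _ _).mp (CongruenceSubgroup.Gamma0_mem.mp hγ)
  rw [HeckeChi_TchiFun_eq_sum, SlashAction.sum_slash, Finset.smul_sum]
  calc ∑ x : OnePoint (ZMod p),
        (χ ((upL p x : ℤ) : ZMod M) • f ∣[(2 : ℤ)] heckeRep p x) ∣[(2 : ℤ)] γ
      = ∑ x : OnePoint (ZMod p), χ ((γ 1 1 : ℤ) : ZMod M) •
          (χ ((upL p (redMatrix p γ • x) : ℤ) : ZMod M) •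
            f ∣[(2 : ℤ)] heckeRep p (redMatrix p γ • x)) := by
        refine Finset.sum_congr rfl fun x _ ↦ ?_
        obtain ⟨g', hg', hmul⟩ := heckeRep_mul hpM γ hcM x
        have hg'M : g' ∈ CongruenceSubgroup.Gamma0 M :=
          CongruenceSubgroup.Gamma0_mem.mpr ((ZMod.intCast_zmod_eq_zero_iff_dvd _ _).mpr hg')
        have h1 := hf g' hg'M
        rw [HeckeChi_SL_slash] at h1
        rw [ModularForm.SL_smul_slash, HeckeChi_SL_slash, ← SlashAction.slash_mul, hmul,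
          SlashAction.slash_mul, h1, HeckeChi_smul_slash_heckeRep, smul_smul, smul_smul,
          HeckeChi_chi_rel χ hpM hg' hmul]
    _ = ∑ x : OnePoint (ZMod p), χ ((γ 1 1 : ℤ) : ZMod M) •
          (χ ((upL p x : ℤ) : ZMod M) • f ∣[(2 : ℤ)] heckeRep p x) :=
        Equiv.sum_comp (MulAction.toPerm (redMatrix p γ)) (fun x ↦ χ ((γ 1 1 : ℤ) : ZMod M) •
          (χ ((upL p x : ℤ) : ZMod M) • f ∣[(2 : ℤ)] heckeRep p x))

theorem HeckeChi_isZeroAt_smul {c : OnePoint ℝ} {f : ℍ → ℂ} {k : ℤ} (a : ℂ)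
    (hf : c.IsZeroAt f k) : c.IsZeroAt (a • f) k := by
  intro g hg
  rw [ModularForm.smul_slash]
  exact (hf g hg).smul _

/-- (c) `T_p^χ f` is a cusp form.  [slash invariance under `Γ₁(M)`: (b) with `χ(1) = 1`; holomorphy:
`ModularForm.mdifferentiable_heckeU/T`; cusps: `CuspFormClass.isZeroAt_heckeU/T` and `TchiFun_eq`
(model: the Prelude definition of `CuspForm.heckeTLin`, `Def_ModularForm_HeckeOperatorForms`).] -/
theorem exists_cuspForm_TchiFun (χ : DirichletCharacter ℂ M) (p : ℕ) [Fact p.Prime]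
    (hpM : ¬ p ∣ M) (f : CuspForm (Gamma1 M) 2) (hf : HasNeb M 2 χ f) :
    ∃ g : CuspForm (Gamma1 M) 2, ⇑g = TchiFun (χ (p : ZMod M)) p f := by
  refine ⟨{ toFun := TchiFun (χ (p : ZMod M)) p f
            slash_action_eq' := ?_
            holo' := ?_
            zero_at_cusps' := ?_ }, rfl⟩
  · rintro _ ⟨γ, hγ, rfl⟩
    have h1 := hasNeb_TchiFun χ p hpM f hf γ (Gamma1_in_Gamma0 M hγ)
    rw [((Gamma1_mem M γ).1 hγ).2.1, map_one, one_smul] at h1
    exact h1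
  · show MDifferentiable (modelWithCornersSelf ℂ ℂ) (modelWithCornersSelf ℂ ℂ)
      (TchiFun (χ (p : ZMod M)) p f)
    rw [TchiFun_eq]
    exact ((mdifferentiable_heckeU (CuspFormClass.holo f) 2 p).const_smul _).add
      ((mdifferentiable_heckeT (CuspFormClass.holo f) 2 p).const_smul _)
  · intro c hc
    show c.IsZeroAt (TchiFun (χ (p : ZMod M)) p f) 2
    rw [TchiFun_eq]
    exact (HeckeChi_isZeroAt_smul _ (CuspFormClass.isZeroAt_heckeU f p hc)).add
      (HeckeChi_isZeroAt_smul _ (CuspFormClass.isZeroAt_heckeT f p hc))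

/-- (d) `q`-coefficients.  [`ModularFormClass.qCoeff_heckeU/T` with `one_mem_strictPeriods_Gamma1`;
for the linearity of `qCoeff` use that `heckeU 2 p f` and `f ∣ heckeDiagMatrix p` are periodic,
holomorphic and bounded at `i∞` (Prelude `Thm_ModularForm_periodic_heckeU_comp_ofComplex`,
`Thm_ModularForm_isBoundedAtImInfty_heckeU`, ...) and `UpperHalfPlane.qExpansion_add/smul`, or
compute directly.] -/
theorem qCoeff_TchiFun (c : ℂ) (p : ℕ) [Fact p.Prime] (f : CuspForm (Gamma1 M) 2) (n : ℕ) :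
    qCoeff (TchiFun c p f) n = cT ((p : ℂ) * c) p (qCoeff f) n := by
  have hp : p ≠ 0 := (Fact.out : p.Prime).ne_zero
  have hΓ := one_mem_strictPeriods_Gamma1 M
  have : Fact (IsCusp OnePoint.infty
      (Subgroup.map (Matrix.SpecialLinearGroup.mapGL ℝ) (Gamma1 M))) :=
    ⟨Subgroup.isCusp_of_mem_strictPeriods one_pos hΓ⟩
  have hper : Function.Periodic ((f : ℍ → ℂ) ∘ ofComplex) 1 := by
    simpa using SlashInvariantFormClass.periodic_comp_ofComplex f hΓ
  have hhol := CuspFormClass.holo f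
  have hbdd := ModularFormClass.bdd_at_infty f
  have hU : AnalyticAt ℂ (cuspFunction 1 (heckeU 2 p f)) 0 :=
    analyticAt_cuspFunction_zero one_pos
      (by simpa using ModularForm.periodic_heckeU_comp_ofComplex hper 2 p)
      (ModularForm.mdifferentiable_heckeU hhol 2 p)
      (ModularForm.isBoundedAtImInfty_heckeU hbdd 2 p)
  have hT : AnalyticAt ℂ (cuspFunction 1 (heckeT 2 p f)) 0 :=
    analyticAt_cuspFunction_zero one_pos
      (by simpa using ModularForm.periodic_heckeT_comp_ofComplex hper 2 p)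
      (ModularForm.mdifferentiable_heckeT hhol 2 p)
      (ModularForm.isBoundedAtImInfty_heckeT hbdd 2 p)
  have hU' : AnalyticAt ℂ (cuspFunction 1 ((1 - c) • heckeU 2 p f)) 0 := by
    rw [cuspFunction_smul hU.continuousAt]
    exact hU.const_smul
  have hT' : AnalyticAt ℂ (cuspFunction 1 (c • heckeT 2 p f)) 0 := by
    rw [cuspFunction_smul hT.continuousAt]
    exact hT.const_smul
  have h1 := ModularFormClass.qCoeff_heckeU f hΓ hp n
  have h2 := ModularFormClass.qCoeff_heckeT f hΓ hp n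
  rw [TchiFun_eq]
  unfold qCoeff at h1 h2 ⊢
  rw [qExpansion_add hU' hT', qExpansion_smul hU, qExpansion_smul hT, map_add, map_smul, map_smul,
    h1, h2]
  simp only [coeffHeckeU, coeffHeckeT, cT, smul_eq_mul, mul_comm n p]
  split_ifs
  · norm_num
    ring
  · ring

/-- **the Hecke operator on `S₂(M, χ)`** -/
theorem exists_heckeChi (χ : DirichletCharacter ℂ M) (p : ℕ) [Fact p.Prime] (hpM : ¬ p ∣ M)
    (f : CuspForm (Gamma1 M) 2) (hf : HasNeb M 2 χ f) :
    ∃ g : CuspForm (Gamma1 M) 2, HasNeb M 2 χ g ∧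
      ⇑g = ∑ x, ⇑f ∣[(2 : ℤ)] (repsT1 p hpM).α x ∧
      ∀ n, qCoeff g n = cT ((p : ℂ) * χ (p : ZMod M)) p (qCoeff f) n := by
  obtain ⟨g, hg⟩ := exists_cuspForm_TchiFun χ p hpM f hf
  refine ⟨g, ?_, ?_, fun n => ?_⟩
  · rw [hg]; exact hasNeb_TchiFun χ p hpM f hf
  · rw [hg, sum_slash_repsT1 χ p hpM f hf]
  · rw [hg, qCoeff_TchiFun]

end Fermat.Agent.S48.Per
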