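import Fermat.Agent.S48.Per.Prim
import Fermat.Agent.S21.Injective

/-!
# S48-PER: the period map of `Γ₁(M)` is injective

PORT of the section `MaxPrinciple` of `Fermat/Agent/S21/Injective.lean` (lines 1-180) from `Γ₀(N)` to
`Γ₁(M)`; only the case of an honestly invariant function is needed.
-/

set_option autoImplicit false

open CongruenceSubgroup Matrix.SpecialLinearGroup UpperHalfPlane Filter Topology
open scoped MatrixGroups ModularForm Manifold

namespace Fermat.Agent.S48.Per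

theorem conj_T_pow_mem_Gamma1 (M : ℕ) (δ : SL(2, ℤ)) :
    δ * ModularGroup.T ^ (M : ℤ) * δ⁻¹ ∈ Gamma1 M := by
  have h1 : ModularGroup.T ^ (M : ℤ) ∈ Gamma M := by
    simpa using ModularGroup_T_pow_mem_Gamma (M : ℤ) (M : ℤ) dvd_rfl
  have h2 : δ * ModularGroup.T ^ (M : ℤ) * δ⁻¹ ∈ Gamma M := (Gamma_normal M).conj_mem _ h1 δ
  rw [Gamma_mem] at h2
  rw [Gamma1_mem]
  exact ⟨h2.1, h2.2.2.2, h2.2.2.1⟩

open Function Fermat.Agent.S21 in
/-- Maximum principle on `X₁(M)` (port of `S21.const_of_re_invariant`). -/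
theorem const_of_invariant1 (M : ℕ) [NeZero M] (G : ℍ → ℂ) (hG : MDiff G)
    (hinv : ∀ γ ∈ Gamma1 M, ∀ z : ℍ, G (γ • z) = G z)
    (hlim : ∀ δ : SL(2, ℤ), ∃ L : ℂ, Tendsto (fun w : ℍ => G (δ • w)) atImInfty (𝓝 L)) :
    ∃ c : ℂ, ∀ z, G z = c := by
  have hN : (0 : ℝ) < M := by exact_mod_cast Nat.pos_of_ne_zero (NeZero.ne M)
  -- Step 1: periodicity of the translates
  have hper : ∀ (δ : SL(2, ℤ)) (w : ℍ), G (δ • ((M : ℝ) +ᵥ w)) = G (δ • w) := by
    intro δ w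
    rw [← hinv _ (conj_T_pow_mem_Gamma1 M δ) (δ • w)]
    congr 1
    rw [← mul_smul, inv_mul_cancel_right, mul_smul, modular_T_zpow_smul]
    simp
  have hperC : ∀ δ : SL(2, ℤ), Periodic ((fun w : ℍ => G (δ • w)) ∘ ofComplex) (M : ℝ) :=
    fun δ => periodic_comp_ofComplex_of_vadd (hper δ)
  -- Step 2: cusp functions
  set Φ : SL(2, ℤ) → ℂ → ℂ := fun δ => cuspFunction (M : ℝ) (fun w : ℍ => G (δ • w)) with hΦ
  have hΦd : ∀ δ, DifferentiableOn ℂ (Φ δ) (Metric.ball 0 1) := by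
    intro δ
    obtain ⟨L, hL⟩ := hlim δ
    exact differentiableOn_cuspFunction_ball hN (hperC δ) (mdiff_comp_smul hG δ)
      (hL.isBigO_one ℝ)
  have hΦq : ∀ δ (w : ℍ), Φ δ (Periodic.qParam (M : ℝ) w) = G (δ • w) :=
    fun δ w => eq_cuspFunction w hN.ne' (hperC δ)
  set E : SL(2, ℤ) → ℂ → ℂ := fun δ q => Complex.exp (Φ δ q) with hE
  have hEd : ∀ δ, DifferentiableOn ℂ (E δ) (Metric.ball 0 1) := fun δ => (hΦd δ).cexp
  -- Step 3: radius
  set r : ℝ := Real.exp (-Real.pi / M) with hr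
  have hr0 : 0 ≤ r := (Real.exp_pos _).le
  have hr1 : r < 1 := by
    rw [hr, Real.exp_lt_one_iff]
    exact div_neg_of_neg_of_pos (by simpa using Real.pi_pos) hN
  have hqr : ∀ w : ℍ, 1 / 2 ≤ w.im → Periodic.qParam (M : ℝ) w ∈ Metric.closedBall (0 : ℂ) r := by
    intro w hw
    rw [mem_closedBall_zero_iff, Periodic.norm_qParam, hr, Real.exp_le_exp,
      div_le_div_iff_of_pos_right hN]
    have : (w : ℂ).im = w.im := rfl
    rw [this]
    nlinarith [Real.pi_pos]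
  -- Step 4: maxima
  have hmax : ∀ δ, ∃ q ∈ Metric.closedBall (0 : ℂ) r,
      IsMaxOn (fun q => ‖E δ q‖) (Metric.closedBall (0 : ℂ) r) q := fun δ =>
    (isCompact_closedBall (0 : ℂ) r).exists_isMaxOn (Metric.nonempty_closedBall.mpr hr0)
      ((hEd δ).continuousOn.mono (Metric.closedBall_subset_ball hr1)).norm
  choose qm hqm hqmax using hmax
  let D : SL(2, ℤ) ⧸ Gamma1 M → SL(2, ℤ) := fun x => (Quotient.out x)⁻¹
  obtain ⟨x₀, hx₀⟩ := Finite.exists_max (fun x : SL(2, ℤ) ⧸ Gamma1 M => ‖E (D x) (qm (D x))‖)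
  -- Step 5: global bound
  have hbound : ∀ z : ℍ, Real.exp (G z).re ≤ ‖E (D x₀) (qm (D x₀))‖ := by
    intro z
    obtain ⟨σ, hσ⟩ := ModularGroup.exists_one_half_le_im_smul z
    obtain ⟨γ, hγ⟩ := QuotientGroup.mk_out_eq_mul (Gamma1 M) σ
    have hc := hinv γ γ.2
    have hz : z = (γ : SL(2, ℤ)) • (D (σ : SL(2, ℤ) ⧸ Gamma1 M) • (σ • z)) := by
      simp only [D]
      rw [hγ, ← mul_smul, ← mul_smul]
      simp
    have h1 : (G z).re = (G (D (σ : SL(2, ℤ) ⧸ Gamma1 M) • (σ • z))).re := by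
      conv_lhs => rw [hz, hc]
    rw [h1, ← hΦq, ← Complex.norm_exp]
    exact (hqmax _ (hqr _ hσ)).trans (hx₀ _)
  -- Step 6: maximum modulus principle
  have hismax : IsMaxOn (norm ∘ E (D x₀)) (Metric.ball 0 1) (qm (D x₀)) := by
    intro q hq
    show ‖E (D x₀) q‖ ≤ ‖E (D x₀) (qm (D x₀))‖
    rcases eq_or_ne q 0 with rfl | hq0
    · exact hqmax (D x₀) (Metric.mem_closedBall_self hr0)
    · have him := Periodic.im_invQParam_pos_of_norm_lt_one hN (mem_ball_zero_iff.mp hq) hq0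
      have h1 : q = Periodic.qParam (M : ℝ) ((⟨_, him⟩ : ℍ) : ℂ) :=
        (Periodic.qParam_right_inv hN.ne' hq0).symm
      have h2 : ‖E (D x₀) q‖ = Real.exp (G (D x₀ • (⟨_, him⟩ : ℍ))).re := by
        rw [← Complex.norm_exp, ← hΦq, ← h1]
      rw [h2]
      exact hbound _
  have hconst := Complex.eq_const_of_exists_max (hEd (D x₀))
    (Metric.closedBall_subset_ball hr1 (hqm (D x₀))) hismax
  -- Step 7
  refine const_of_exp_const hG (C := E (D x₀) (qm (D x₀))) fun z => ?_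
  have hq : Periodic.qParam (M : ℝ) (((D x₀)⁻¹ • z : ℍ) : ℂ) ∈ Metric.ball (0 : ℂ) 1 := by
    rw [mem_ball_zero_iff]
    exact Periodic.norm_qParam_lt_one hN (im_pos _)
  have := hconst hq
  simp only [hE, const_apply] at this
  rw [hΦq, smul_inv_smul] at this
  exact this

variable {M : ℕ} [NeZero M]

/-- [`per f = 0`: `prim f` is invariant, so constant, so `f = 0` (`S21.mdiff_of_hasDerivAt`,
`S21.eq_zero_of_hasDerivAt_const`).] -/
theorem per_injective (f : CuspForm (Gamma1 M) 2) (h : per f = 0) : f = 0 := by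
  have hP := isPrim1_prim f
  have hinv : ∀ γ ∈ Gamma1 M, ∀ z : ℍ, prim f (γ • z) = prim f z := by
    intro γ hγ z
    have h1 := per_apply f ⟨γ, hγ⟩ z
    rw [h, AddMonoidHom.zero_apply] at h1
    exact (sub_eq_zero.1 h1.symm)
  obtain ⟨c, hc⟩ := const_of_invariant1 M (prim f)
    (Fermat.Agent.S21.mdiff_of_hasDerivAt hP.deriv) hinv hP.lim
  ext τ
  exact Fermat.Agent.S21.eq_zero_of_hasDerivAt_const hP.deriv hc τ

end Fermat.Agent.S48.Per
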