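import Fermat.Agent.S48.Iface

/-!
# S48-PER: the subring `ι(Λ) ⊆ ℂ` and its residue map
-/

set_option autoImplicit false

namespace Fermat.Agent.S48.Per

variable (ι : Qb →+* ℂ) (Λ : ValuationSubring Qb)

/-- `ι(Λ) ⊆ ℂ`. -/
noncomputable def R0 : Subring ℂ := Λ.toSubring.map ι

variable {ι Λ} in
theorem mem_R0 {z : ℂ} : z ∈ R0 ι Λ ↔ ∃ y ∈ Λ, ι y = z := Iff.rfl

variable {Λ} in
theorem map_mem_R0 {y : Qb} (hy : y ∈ Λ) : ι y ∈ R0 ι Λ := ⟨y, hy, rfl⟩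

/-- the residue map `ι(Λ) → k_Λ`. -/
noncomputable def phi0 : R0 ι Λ →+* kk Λ :=
  (IsLocalRing.residue Λ).comp
    (Λ.toSubring.equivMapOfInjective ι ι.injective).symm.toRingHom

variable {Λ} in
theorem phi0_mk {y : Qb} (hy : y ∈ Λ) : phi0 ι Λ ⟨ι y, map_mem_R0 ι hy⟩ = res Λ y := by
  unfold res
  rw [dif_pos hy]
  show IsLocalRing.residue Λ ((Λ.toSubring.equivMapOfInjective ι ι.injective).symm
    ⟨ι y, map_mem_R0 ι hy⟩) = IsLocalRing.residue Λ ⟨y, hy⟩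
  congr 1
  rw [RingEquiv.symm_apply_eq]
  exact Subtype.ext rfl

theorem phi0_surjective : Function.Surjective (phi0 ι Λ) := by
  intro z
  obtain ⟨⟨y, hy⟩, rfl⟩ := IsLocalRing.residue_surjective z
  refine ⟨⟨ι y, map_mem_R0 ι hy⟩, ?_⟩
  rw [phi0_mk ι hy]
  unfold res
  rw [dif_pos hy]

variable {Λ} in
theorem phi0_mk_eq_zero_iff {y : Qb} (hy : y ∈ Λ) :
    phi0 ι Λ ⟨ι y, map_mem_R0 ι hy⟩ = 0 ↔ y ∈ Λ.nonunits := by
  rw [phi0_mk ι hy]
  unfold res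
  rw [dif_pos hy, IsLocalRing.residue_eq_zero_iff,
    ValuationSubring.mem_nonunits_iff_exists_mem_maximalIdeal]
  exact ⟨fun h => ⟨hy, h⟩, fun ⟨_, h⟩ => h⟩

variable {ι Λ} in
theorem exists_of_phi0_eq_zero {a : R0 ι Λ} (h : phi0 ι Λ a = 0) :
    ∃ y ∈ Λ.nonunits, ι y = a := by
  obtain ⟨_, y, hy, rfl⟩ := a
  exact ⟨y, (phi0_mk_eq_zero_iff ι hy).1 h, rfl⟩

/-- the values of a Dirichlet character are `0` or roots of unity, so they are integral.
[`x` a unit: `χ x ^ φ(M) = 1`, and `y ^ n = 1` implies `y ∈ Λ` (as in `S33.Ram_mem_of_pow_eq_one`: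
otherwise `1 < v(y)`, `1 < v(y) ^ n = 1`).] -/
theorem dirichlet_mem {M : ℕ} [NeZero M] (χ : DirichletCharacter Qb M) (x : ZMod M) :
    χ x ∈ Λ := by
  by_cases hx : IsUnit x
  · obtain ⟨u, rfl⟩ := hx
    have h1 : χ (u : ZMod M) ^ M.totient = 1 := by
      rw [← map_pow, ← Units.val_pow_eq_pow_val, ZMod.pow_totient, Units.val_one, map_one]
    have hn : 0 < M.totient := Nat.totient_pos.2 (Nat.pos_of_ne_zero (NeZero.ne M))
    rw [← ValuationSubring.valuation_le_one_iff]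
    by_contra hlt
    push Not at hlt
    have h2 := one_lt_pow₀ hlt hn.ne'
    rw [← map_pow, h1, map_one] at h2
    exact lt_irrefl _ h2
  · rw [χ.map_nonunit hx]
    exact Λ.zero_mem

theorem add_mem_nonunits {x y : Qb} (hx : x ∈ Λ.nonunits) (hy : y ∈ Λ.nonunits) :
    x + y ∈ Λ.nonunits := by
  rw [ValuationSubring.mem_nonunits_iff] at *
  exact (Λ.valuation.map_add x y).trans_lt (max_lt hx hy)

theorem mul_mem_nonunits {x y : Qb} (hx : x ∈ Λ) (hy : y ∈ Λ.nonunits) :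
    x * y ∈ Λ.nonunits := by
  rw [ValuationSubring.mem_nonunits_iff] at *
  rw [map_mul]
  have hx' := (Λ.valuation_le_one_iff x).2 hx
  calc Λ.valuation x * Λ.valuation y ≤ 1 * Λ.valuation y := mul_le_mul' hx' le_rfl
    _ = Λ.valuation y := one_mul _
    _ < 1 := hy

theorem zero_mem_nonunits : (0 : Qb) ∈ Λ.nonunits := by
  rw [ValuationSubring.mem_nonunits_iff, map_zero]
  exact zero_lt_one

end Fermat.Agent.S48.Per
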