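import Fermat.Agent.S48.Per.Space
import Fermat.Agent.S48.Per.Ring

/-!
# S48-PER: the forms of `S₂(M, χ)` all of whose coefficients lie in `ι(𝔪_Λ)`
-/

set_option autoImplicit false

open CongruenceSubgroup Matrix.SpecialLinearGroup UpperHalfPlane ModularFormClass
  Fermat.Agent.G1.B
open scoped MatrixGroups ModularForm

namespace Fermat.Agent.S48.Per

variable {M : ℕ} [NeZero M] (ι : Qb →+* ℂ) (Λ : ValuationSubring Qb)
  (χ : DirichletCharacter Qb M)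

/-- `χ` with complex values. -/
noncomputable abbrev chiC : DirichletCharacter ℂ M := χ.ringHomComp ι

theorem chiC_apply (x : ZMod M) : chiC ι χ x = ι (χ x) := rfl

omit [NeZero M] in
theorem Int_qCoeff_zero (n : ℕ) : qCoeff (⇑(0 : CuspForm (Gamma1 M) 2)) n = 0 := by
  have := qCoeff_sub1 (0 : CuspForm (Gamma1 M) 2) 0 n
  rwa [sub_self, sub_self] at this

omit [NeZero M] in
theorem Int_qCoeff_smul {χ' : ZMod M → ℂ} (a : R0 ι Λ) (f : S2chi M χ') (n : ℕ) :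
    qCoeff (⇑((a • f : S2chi M χ') : CuspForm (Gamma1 M) 2)) n =
      (a : ℂ) * qCoeff (f : CuspForm (Gamma1 M) 2) n :=
  qCoeff_smul1 (a : ℂ) (f : CuspForm (Gamma1 M) 2) n

/-- the forms all of whose coefficients lie in `ι(𝔪_Λ)`. -/
def S1 : Submodule (R0 ι Λ) (S2chi M (chiC ι χ)) where
  carrier := {f | ∀ n, ∃ y ∈ Λ.nonunits, ι y = qCoeff (f : CuspForm (Gamma1 M) 2) n}
  zero_mem' := by
    intro n
    exact ⟨0, zero_mem_nonunits Λ, by rw [map_zero]; exact (Int_qCoeff_zero n).symm⟩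
  add_mem' := by
    intro f g hf hg n
    obtain ⟨y, hy, hyf⟩ := hf n
    obtain ⟨z, hz, hzg⟩ := hg n
    refine ⟨y + z, add_mem_nonunits Λ hy hz, ?_⟩
    rw [map_add, hyf, hzg]
    exact (qCoeff_add1 (f : CuspForm (Gamma1 M) 2) (g : CuspForm (Gamma1 M) 2) n).symm
  smul_mem' := by
    intro a f hf n
    obtain ⟨y, hy, hyf⟩ := hf n
    obtain ⟨z, hz, hza⟩ := mem_R0.1 a.2
    refine ⟨z * y, mul_mem_nonunits Λ hz hy, ?_⟩
    rw [map_mul, hyf, hza]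
    exact (Int_qCoeff_smul ι Λ a f n).symm

theorem mem_S1 {f : S2chi M (chiC ι χ)} :
    f ∈ S1 ι Λ χ ↔ ∀ n, ∃ y ∈ Λ.nonunits, ι y = qCoeff (f : CuspForm (Gamma1 M) 2) n := Iff.rfl

/-- [`qCoeff_Tchi`, `dirichlet_mem`.] -/
theorem Tchi_mem_S1 (p : PrimeIdx M) {f : S2chi M (chiC ι χ)} (hf : f ∈ S1 ι Λ χ) :
    Tchi (chiC ι χ) p f ∈ S1 ι Λ χ := by
  intro n
  rw [qCoeff_Tchi]
  obtain ⟨y, hy, hyf⟩ := hf (p.1 * n)
  have hc : (p.1 : Qb) * χ (p.1 : ZMod M) ∈ Λ := mul_mem (natCast_mem Λ p.1) (dirichlet_mem Λ χ _)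
  show ∃ y ∈ Λ.nonunits, ι y = qCoeff (f : CuspForm (Gamma1 M) 2) (p.1 * n) +
    ((p.1 : ℂ) * chiC ι χ (p.1 : ZMod M)) *
      (if p.1 ∣ n then qCoeff (f : CuspForm (Gamma1 M) 2) (n / p.1) else 0)
  split_ifs with hpn
  · obtain ⟨z, hz, hzf⟩ := hf (n / p.1)
    refine ⟨y + (p.1 : Qb) * χ (p.1 : ZMod M) * z,
      add_mem_nonunits Λ hy (mul_mem_nonunits Λ hc hz), ?_⟩
    rw [map_add, map_mul, map_mul, map_natCast, hyf, hzf, chiC_apply]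
  · exact ⟨y, hy, by rw [hyf, mul_zero, add_zero]⟩

variable {ι Λ χ}

theorem smul_mem_S1 {g : S2chi M (chiC ι χ)} {b : ℕ → Qb}
    (hb : ∀ n, ι (b n) = qCoeff (g : CuspForm (Gamma1 M) 2) n) (hbΛ : ∀ n, b n ∈ Λ)
    {a : R0 ι Λ} (ha : phi0 ι Λ a = 0) : a • g ∈ S1 ι Λ χ := by
  intro n
  obtain ⟨y, hy, hya⟩ := exists_of_phi0_eq_zero ha
  refine ⟨b n * y, mul_mem_nonunits Λ (hbΛ n) hy, ?_⟩
  rw [map_mul, hb n, hya, mul_comm]
  exact (Int_qCoeff_smul ι Λ a g n).symm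

theorem not_mem_S1 {g : S2chi M (chiC ι χ)} {b : ℕ → Qb}
    (hb : ∀ n, ι (b n) = qCoeff (g : CuspForm (Gamma1 M) 2) n)
    (hbne : ∃ n, b n ∉ Λ.nonunits) : g ∉ S1 ι Λ χ := by
  intro hg
  obtain ⟨n, hn⟩ := hbne
  obtain ⟨y, hy, hyg⟩ := hg n
  rw [← hb n] at hyg
  exact hn (ι.injective hyg ▸ hy)

theorem eig_mem_S1 {g : S2chi M (chiC ι χ)} {b t : ℕ → Qb}
    (hb : ∀ n, ι (b n) = qCoeff (g : CuspForm (Gamma1 M) 2) n) (ht : ∀ p, t p ∈ Λ)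
    (heig : ∀ p : ℕ, p.Prime → ¬ p ∣ M → ∀ n : ℕ,
      b (p * n) + (p : Qb) * χ (p : ZMod M) * (if p ∣ n then b (n / p) else 0) - t p * b n
        ∈ Λ.nonunits) (p : PrimeIdx M) :
    Tchi (chiC ι χ) p g - (⟨ι (t p.1), map_mem_R0 ι (ht p.1)⟩ : R0 ι Λ) • g ∈ S1 ι Λ χ := by
  intro n
  refine ⟨_, heig p.1 p.2.1 p.2.2 n, ?_⟩
  have h1 : qCoeff (⇑((Tchi (chiC ι χ) p g - (⟨ι (t p.1), map_mem_R0 ι (ht p.1)⟩ : R0 ι Λ) • g :
      S2chi M (chiC ι χ)) : CuspForm (Gamma1 M) 2)) n =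
      qCoeff (Tchi (chiC ι χ) p g : CuspForm (Gamma1 M) 2) n -
        qCoeff (⇑(((⟨ι (t p.1), map_mem_R0 ι (ht p.1)⟩ : R0 ι Λ) • g : S2chi M (chiC ι χ)) :
          CuspForm (Gamma1 M) 2)) n :=
    qCoeff_sub1 _ _ n
  rw [h1, Int_qCoeff_smul, qCoeff_Tchi]
  show _ = qCoeff (g : CuspForm (Gamma1 M) 2) (p.1 * n) +
    ((p.1 : ℂ) * chiC ι χ (p.1 : ZMod M)) *
      (if p.1 ∣ n then qCoeff (g : CuspForm (Gamma1 M) 2) (n / p.1) else 0) -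
      ι (t p.1) * qCoeff (g : CuspForm (Gamma1 M) 2) n
  rw [map_sub, map_add, map_mul, map_mul, map_mul, map_natCast, hb, hb, chiC_apply]
  split_ifs with hpn
  · rw [hb]
  · rw [map_zero]

end Fermat.Agent.S48.Per
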