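import Mathlib

/-!
# S48-PER: homomorphisms `G → 𝔽_ℓ` and `G → F` (`F` a field of characteristic `ℓ`), Mathlib only

`V` a finite dimensional `𝔽_ℓ`-subspace of `Hom(G, 𝔽_ℓ)` with basis `ψ`.
* `exists_dual` : there are `g_j ∈ G` with `ψ_i (g_j) = δ_ij`.
* `eq_sum_of_forall_comp_mem` : a homomorphism `x : G → F` all of whose "coordinates" `λ ∘ x`
  (`λ : F → 𝔽_ℓ` linear) lie in `V` is `∑ x (g_i) ψ_i`.
* `exists_int_lift` : an endomorphism of `V` lifts to an endomorphism of `ℤ^r`.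
-/

set_option autoImplicit false

namespace Fermat.Agent.S48.Per

variable {G : Type*} [Group G] {ℓ : ℕ} [Fact ℓ.Prime]
  {V : Submodule (ZMod ℓ) (Additive G →+ ZMod ℓ)} {r : ℕ} (ψ : Module.Basis (Fin r) (ZMod ℓ) V)

/-- `n ↦ ∑ n_i ψ_i`. -/
noncomputable def redB : (Fin r → ℤ) →+ (Additive G →+ ZMod ℓ) where
  toFun n := ∑ i, n i • ((ψ i : V) : Additive G →+ ZMod ℓ)
  map_zero' := by simp
  map_add' a b := by simp [add_smul, Finset.sum_add_distrib]

theorem redB_apply (n : Fin r → ℤ) :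
    redB ψ n = ∑ i, n i • ((ψ i : V) : Additive G →+ ZMod ℓ) := rfl

theorem ModL_redB_eq (n : Fin r → ℤ) :
    redB ψ n = ((∑ i, ((n i : ℤ) : ZMod ℓ) • ψ i : V) : Additive G →+ ZMod ℓ) := by
  rw [redB_apply, AddSubmonoidClass.coe_finsetSum]
  refine Finset.sum_congr rfl fun i _ => ?_
  rw [Submodule.coe_smul, Int.cast_smul_eq_zsmul]

theorem redB_mem (n : Fin r → ℤ) : redB ψ n ∈ V := by
  rw [ModL_redB_eq]
  exact Subtype.coe_prop _

/-- [`ψ.repr`, lift the coordinates with `ZMod.val` / `ZMod.intCast_surjective`; `(a : ℤ) • v =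
((a : ℤ) : ZMod ℓ) • v` (`Int.cast_smul_eq_zsmul`).] -/
theorem exists_redB_eq {φ : Additive G →+ ZMod ℓ} (hφ : φ ∈ V) : ∃ n, redB ψ n = φ := by
  refine ⟨fun i => ((ψ.repr ⟨φ, hφ⟩ i).val : ℤ), ?_⟩
  rw [ModL_redB_eq]
  have h1 : ∀ i, ((((ψ.repr ⟨φ, hφ⟩ i).val : ℤ) : ℤ) : ZMod ℓ) = ψ.repr ⟨φ, hφ⟩ i := by
    intro i
    rw [Int.cast_natCast, ZMod.natCast_zmod_val]
  simp only [h1]
  rw [ψ.sum_repr]

/-- [linear independence of `ψ`: `redB n = 0 ↔ ∀ i, (n i : ZMod ℓ) = 0 ↔ ∀ i, ℓ ∣ n i`.] -/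
theorem redB_eq_zero_iff (n : Fin r → ℤ) : redB ψ n = 0 ↔ ∃ y : Fin r → ℤ, n = (ℓ : ℤ) • y := by
  rw [ModL_redB_eq, ZeroMemClass.coe_eq_zero]
  constructor
  · intro h
    have h1 := Fintype.linearIndependent_iff.mp ψ.linearIndependent _ h
    have h2 : ∀ i, ∃ y : ℤ, n i = (ℓ : ℤ) * y := fun i =>
      (ZMod.intCast_zmod_eq_zero_iff_dvd (n i) ℓ).mp (h1 i)
    choose y hy using h2
    exact ⟨y, funext fun i => by rw [hy i, Pi.smul_apply, smul_eq_mul]⟩
  · rintro ⟨y, rfl⟩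
    refine Finset.sum_eq_zero fun i _ => ?_
    have : ((((ℓ : ℤ) • y) i : ℤ) : ZMod ℓ) = 0 := by
      rw [Pi.smul_apply, smul_eq_mul, Int.cast_mul, Int.cast_natCast, ZMod.natCast_self, zero_mul]
    rw [this, zero_smul]

/-- `γ ↦ (ψ_i γ)_i`. -/
noncomputable def ModL_E : Additive G →+ (Fin r → ZMod ℓ) where
  toFun γ := fun i => ((ψ i : V) : Additive G →+ ZMod ℓ) γ
  map_zero' := by
    funext i
    simp
  map_add' a b := by
    funext i
    simp

theorem ModL_E_range : AddSubgroup.toZModSubmodule ℓ (ModL_E ψ).range = ⊤ := by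
  by_contra hne
  obtain ⟨f, hf0, hf⟩ := Submodule.exists_le_ker_of_lt_top _ (lt_top_iff_ne_top.mpr hne)
  apply hf0
  have hsum : ∀ v : Fin r → ZMod ℓ, f v = ∑ i, v i • f (fun j => if i = j then 1 else 0) :=
    fun v => LinearMap.pi_apply_eq_sum_univ f v
  have hrel : (∑ i, f (fun j => if i = j then 1 else 0) • ψ i : V) = 0 := by
    apply Subtype.ext
    refine AddMonoidHom.ext fun γ => ?_
    have h1 : f (ModL_E ψ γ) = 0 := by
      have : ModL_E ψ γ ∈ AddSubgroup.toZModSubmodule ℓ (ModL_E ψ).range := ⟨γ, rfl⟩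
      exact hf this
    rw [hsum] at h1
    rw [AddSubmonoidClass.coe_finsetSum, AddMonoidHom.finsetSum_apply]
    rw [ZeroMemClass.coe_zero, AddMonoidHom.zero_apply]
    refine Eq.trans ?_ h1
    refine Finset.sum_congr rfl fun i _ => ?_
    rw [Submodule.coe_smul, AddMonoidHom.smul_apply, smul_eq_mul, smul_eq_mul, mul_comm]
    rfl
  have h0 := Fintype.linearIndependent_iff.mp ψ.linearIndependent _ hrel
  refine LinearMap.ext fun v => ?_
  rw [hsum, LinearMap.zero_apply]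
  exact Finset.sum_eq_zero fun i _ => by rw [h0 i, smul_zero]

/-- **dual elements.**  [the range of `g ↦ (ψ_i g)_i : G → 𝔽_ℓ^r` is an additive subgroup, hence an
`𝔽_ℓ`-subspace (`AddSubgroup.toZModSubmodule`); if it were proper there would be a nonzero linear
form vanishing on it (`Submodule.exists_le_ker_of_lt_top` / `Module.Dual`), i.e. a nontrivial relation
`∑ a_i ψ_i = 0`.  So it is everything: take preimages of `Pi.single j 1`.] -/
theorem exists_dual : ∃ g : Fin r → G, ∀ i j,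
    ((ψ i : V) : Additive G →+ ZMod ℓ) (Additive.ofMul (g j)) = if i = j then 1 else 0 := by
  have h : ∀ j : Fin r, ∃ γ : Additive G, ModL_E ψ γ = Pi.single j 1 := by
    intro j
    have h1 : (Pi.single j 1 : Fin r → ZMod ℓ) ∈
        AddSubgroup.toZModSubmodule ℓ (ModL_E ψ).range := by
      rw [ModL_E_range]
      exact Submodule.mem_top
    exact h1
  choose γ hγ using h
  refine ⟨fun j => Additive.toMul (γ j), fun i j => ?_⟩
  have h2 := congrFun (hγ j) i
  rw [Pi.single_apply] at h2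
  exact h2

/-- **expansion.**  [`y := x - ∑ x(g_i) ψ_i`; for `λ : F →ₗ[𝔽_ℓ] 𝔽_ℓ`, `λ ∘ y ∈ V` vanishes at all
`g_j`, so it is `0` (expand it in the basis `ψ` and evaluate at `g_j`); the linear forms separate the
points of `F` (`Module.forall_dual_apply_eq_zero_iff`).] -/
theorem eq_sum_of_forall_comp_mem {F : Type*} [Field F] [Algebra (ZMod ℓ) F]
    {g : Fin r → G} (hg : ∀ i j,
      ((ψ i : V) : Additive G →+ ZMod ℓ) (Additive.ofMul (g j)) = if i = j then 1 else 0)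
    (x : Additive G →+ F)
    (hx : ∀ lam : F →ₗ[ZMod ℓ] ZMod ℓ, lam.toAddMonoidHom.comp x ∈ V) (γ : Additive G) :
    x γ = ∑ i, x (Additive.ofMul (g i)) *
      algebraMap (ZMod ℓ) F (((ψ i : V) : Additive G →+ ZMod ℓ) γ) := by
  rw [← sub_eq_zero, ← Module.forall_dual_apply_eq_zero_iff (ZMod ℓ)]
  intro lam
  set φ : V := ⟨lam.toAddMonoidHom.comp x, hx lam⟩ with hφ
  have hexp : ∀ δ : Additive G, lam (x δ)
      = ∑ i, ψ.repr φ i * ((ψ i : V) : Additive G →+ ZMod ℓ) δ := by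
    intro δ
    have h1 : ((∑ i, ψ.repr φ i • ψ i : V) : Additive G →+ ZMod ℓ) δ = lam (x δ) := by
      rw [ψ.sum_repr φ]
      rfl
    rw [← h1, Submodule.coe_sum, AddMonoidHom.finsetSum_apply]
    rfl
  have hc : ∀ j, ψ.repr φ j = lam (x (Additive.ofMul (g j))) := by
    intro j
    rw [hexp (Additive.ofMul (g j))]
    simp only [hg, mul_ite, mul_one, mul_zero, Finset.sum_ite_eq', Finset.mem_univ, if_true]
  rw [map_sub, map_sum, hexp γ, sub_eq_zero]
  refine Finset.sum_congr rfl fun i _ => ?_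
  rw [hc i, mul_comm (x _), ← Algebra.smul_def, map_smul, smul_eq_mul, mul_comm]

/-- **integral lifts of endomorphisms.**  [matrix of `f` in the basis `ψ`, entries lifted to `ℤ`;
`Matrix.toLin'` / `Matrix.mulVecLin`.] -/
theorem exists_int_lift (f : Module.End (ZMod ℓ) V) :
    ∃ A : Matrix (Fin r) (Fin r) ℤ,
      (∀ n : Fin r → ℤ, redB ψ (A.mulVec n) = ((f ⟨redB ψ n, redB_mem ψ n⟩ : V) :
        Additive G →+ ZMod ℓ)) ∧
      ∀ j, ((f (ψ j) : V) : Additive G →+ ZMod ℓ) =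
        ∑ i, A i j • ((ψ i : V) : Additive G →+ ZMod ℓ) := by
  obtain ⟨a, ha⟩ : ∃ a : Fin r → Fin r → ℤ,
      ∀ i j, ((a i j : ℤ) : ZMod ℓ) = ψ.repr (f (ψ j)) i :=
    ⟨fun i j => ((ψ.repr (f (ψ j)) i).val : ℤ), fun i j => by
      rw [Int.cast_natCast, ZMod.natCast_zmod_val]⟩
  have h2V : ∀ j, f (ψ j) = ∑ i, a i j • ψ i := by
    intro j
    conv_lhs => rw [← ψ.sum_repr (f (ψ j))]
    refine Finset.sum_congr rfl fun i _ => ?_
    rw [← ha]
    exact Int.cast_smul_eq_zsmul (ZMod ℓ) (a i j) (ψ i)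
  have hcoe : ∀ (c : ℤ) (v : V),
      ((c • v : V) : Additive G →+ ZMod ℓ) = c • (v : Additive G →+ ZMod ℓ) :=
    fun c v => rfl
  have h2 : ∀ j, ((f (ψ j) : V) : Additive G →+ ZMod ℓ) =
      ∑ i, a i j • ((ψ i : V) : Additive G →+ ZMod ℓ) := by
    intro j
    rw [h2V j, Submodule.coe_sum]
    exact Finset.sum_congr rfl fun i _ => hcoe _ _
  refine ⟨Matrix.of a, fun n => ?_, h2⟩
  have hn : (⟨redB ψ n, redB_mem ψ n⟩ : V) = ∑ j, n j • ψ j := by
    apply Subtype.ext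
    rw [Submodule.coe_sum]
    change redB ψ n = _
    rw [redB_apply]
    exact Finset.sum_congr rfl fun i _ => (hcoe _ _).symm
  rw [hn, map_sum, Submodule.coe_sum, redB_apply]
  have h3 : ∀ j, ((f (n j • ψ j) : V) : Additive G →+ ZMod ℓ) =
      ∑ i, (a i j * n j) • ((ψ i : V) : Additive G →+ ZMod ℓ) := by
    intro j
    have h5 : f (n j • ψ j) = n j • f (ψ j) := map_zsmul f (n j) (ψ j)
    rw [h5, hcoe, h2, Finset.smul_sum]
    refine Finset.sum_congr rfl fun i _ => ?_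
    rw [smul_smul, mul_comm]
  have h4 : ∀ i, (Matrix.of a).mulVec n i = ∑ j, a i j * n j := fun i => rfl
  simp only [h3, h4, Finset.sum_smul]
  rw [Finset.sum_comm]

/-- `Hom(G, 𝔽_ℓ)` is finite when `G` is finitely generated.  [a homomorphism is determined by its
values on a finite generating set: injection into `S → ZMod ℓ`.] -/
theorem finite_hom_zmod [Group.FG G] : Finite (Additive G →+ ZMod ℓ) := by
  obtain ⟨S, hS⟩ := Group.FG.out (G := G)
  refine Finite.of_injective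
    (fun (φ : Additive G →+ ZMod ℓ) (s : S) => φ (Additive.ofMul (s : G))) ?_
  intro φ φ' h
  let H : Subgroup G :=
    { carrier := {g | φ (Additive.ofMul g) = φ' (Additive.ofMul g)}
      mul_mem' := by
        intro a b ha hb
        show φ (Additive.ofMul (a * b)) = φ' (Additive.ofMul (a * b))
        rw [ofMul_mul, map_add, map_add, ha, hb]
      one_mem' := by
        show φ (Additive.ofMul 1) = φ' (Additive.ofMul 1)
        rw [ofMul_one, map_zero, map_zero]
      inv_mem' := by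
        intro a ha
        show φ (Additive.ofMul a⁻¹) = φ' (Additive.ofMul a⁻¹)
        rw [ofMul_inv, map_neg, map_neg, ha] }
  have hle : Subgroup.closure (S : Set G) ≤ H :=
    (Subgroup.closure_le H).mpr fun s hs => congrFun h ⟨s, hs⟩
  rw [hS] at hle
  exact AddMonoidHom.ext fun γ => hle (Subgroup.mem_top (Additive.toMul γ))

end Fermat.Agent.S48.Per
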