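import Fermat.Agent.S48.Per.Defs
import Fermat.Agent.S48.Per.ModL
import Fermat.Agent.S48.Per.FG
import Fermat.Agent.G1.B.Kills
import Fermat.Agent.G1.B.Conj
import Fermat.Agent.G1.H.Build

/-!
# S48-PER: the "lattice" of G1-H

`V_ℓ = {ψ : Γ₁(M) → 𝔽_ℓ killing elliptic and parabolic elements}` with the operators
`(repsT1 p).op`, `(repsD p).op`; `latV : ℕ → ℕ → HeckeLat` and `latSpec : LatSpec M ℓ (latV M ℓ)`.

(NO statement about `H₁(X₁(M), ℤ)` is used.)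
-/

set_option autoImplicit false

open CongruenceSubgroup Matrix.SpecialLinearGroup UpperHalfPlane Fermat.Agent.G1.B
open scoped MatrixGroups

namespace Fermat.Agent.S48.Per

variable (M ℓ : ℕ) [NeZero M] [Fact ℓ.Prime]

/-- `V_ℓ`. -/
def Vl : Submodule (ZMod ℓ) (Additive (Gamma1 M) →+ ZMod ℓ) where
  carrier := {ψ | Kills1 ψ}
  zero_mem' := fun _ _ => rfl
  add_mem' := by
    intro a b ha hb γ hγ
    rw [AddMonoidHom.add_apply, ha γ hγ, hb γ hγ, add_zero]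
  smul_mem' := by
    intro c a ha γ hγ
    rw [AddMonoidHom.smul_apply, ha γ hγ, smul_zero]

variable {M ℓ} in
theorem mem_Vl {ψ : Additive (Gamma1 M) →+ ZMod ℓ} : ψ ∈ Vl M ℓ ↔ Kills1 ψ := Iff.rfl

/-- [`fg_Gamma1`, `finite_hom_zmod`, `Subtype.finite`.] -/
instance finite_Vl' : Finite (Vl M ℓ) := by
  have := fg_Gamma1 M
  have : Finite (Additive (Gamma1 M) →+ ZMod ℓ) := finite_hom_zmod
  exact Subtype.finite

instance finite_Vl : Module.Finite (ZMod ℓ) (Vl M ℓ) := Module.Finite.of_finite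

instance finite_Vl_int : Module.Finite ℤ (Vl M ℓ) := Module.Finite.of_finite

/-- the rank. -/
noncomputable def rkl : ℕ := Module.finrank (ZMod ℓ) (Vl M ℓ)

/-- a basis of `V_ℓ`. -/
noncomputable def basl : Module.Basis (Fin (rkl M ℓ)) (ZMod ℓ) (Vl M ℓ) :=
  Module.finBasis (ZMod ℓ) (Vl M ℓ)

/-- a correspondence acting on `V_ℓ`. -/
noncomputable def opV (H : Reps1 M) : Module.End (ZMod ℓ) (Vl M ℓ) :=
  (H.opLin (ZMod ℓ) (ZMod ℓ)).restrict (fun φ hφ => fun γ hγ => H.op_kills φ hφ γ hγ)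

@[simp] theorem coe_opV (H : Reps1 M) (x : Vl M ℓ) :
    ((opV M ℓ H x : Vl M ℓ) : Additive (Gamma1 M) →+ ZMod ℓ) = H.op (ZMod ℓ) x := rfl

open Classical in
/-- the module `V_ℓ` with `T_p`, `⟨p⟩`. -/
noncomputable def latMod : G1.H.HeckeLat where
  Lam := Vl M ℓ
  T p := if h : p.Prime ∧ ¬ p ∣ M then
      (haveI : Fact p.Prime := ⟨h.1⟩; (opV M ℓ (repsT1 p h.2)).restrictScalars ℤ) else 0
  D p := if h : p.Prime ∧ ¬ p ∣ M then
      (haveI : Fact p.Prime := ⟨h.1⟩; (opV M ℓ (repsD p h.2)).restrictScalars ℤ) else 0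

theorem latMod_T (p : ℕ) [Fact p.Prime] (hpM : ¬ p ∣ M) :
    (latMod M ℓ).T p = (opV M ℓ (repsT1 p hpM)).restrictScalars ℤ :=
  dif_pos (⟨Fact.out, hpM⟩ : p.Prime ∧ ¬ p ∣ M)

theorem latMod_D (p : ℕ) [Fact p.Prime] (hpM : ¬ p ∣ M) :
    (latMod M ℓ).D p = (opV M ℓ (repsD p hpM)).restrictScalars ℤ :=
  dif_pos (⟨Fact.out, hpM⟩ : p.Prime ∧ ¬ p ∣ M)

/-- `LatSpec` for `latMod`. -/
noncomputable def latSpecMod : G1.H.LatSpec M ℓ (latMod M ℓ) where
  red := (Vl M ℓ).subtype.toAddMonoidHom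
  red_eq_zero_iff x := by
    constructor
    · intro h
      refine ⟨0, ?_⟩
      rw [smul_zero]
      exact Subtype.val_injective h
    · rintro ⟨y, rfl⟩
      rw [map_zsmul]
      refine AddMonoidHom.ext fun γ => ?_
      rw [AddMonoidHom.smul_apply, AddMonoidHom.zero_apply, zsmul_eq_mul, Int.cast_natCast,
        ZMod.natCast_self, zero_mul]
  free_or_inj := Or.inr Subtype.val_injective
  red_kills x := x.2
  red_surj ψ hψ := ⟨⟨ψ, hψ⟩, rfl⟩
  red_T p _ hpM x := by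
    rw [latMod_T M ℓ p hpM]
    rfl
  red_D p _ hpM x γ γ' h := by
    rw [latMod_D M ℓ p hpM]
    have h1 : γ' = ⟨sigmaP M p hpM * (γ : SL(2, ℤ)) * (sigmaP M p hpM)⁻¹,
      conj_mem_Gamma1 (sigmaP_mem M p hpM) γ⟩ := Subtype.ext h
    rw [h1]
    exact repsConj_op_apply _ _ _ γ

omit [NeZero M] [Fact ℓ.Prime] in
open Classical in
/-- **the family of modules delivered to G1-H** (junk `PUnit` when `M = 0` or `ℓ` is not prime). -/
noncomputable def latV : G1.H.HeckeLat :=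
  if h : M ≠ 0 ∧ ℓ.Prime then
    (haveI : NeZero M := ⟨h.1⟩; haveI : Fact ℓ.Prime := ⟨h.2⟩; latMod M ℓ)
  else { Lam := PUnit, T := 0, D := 0 }

theorem latV_eq : latV M ℓ = latMod M ℓ :=
  dif_pos (⟨NeZero.ne M, Fact.out⟩ : M ≠ 0 ∧ ℓ.Prime)

/-- **`LatSpec` for `latV`.** -/
noncomputable def latSpec : G1.H.LatSpec M ℓ (latV M ℓ) :=
  (latV_eq M ℓ).symm ▸ latSpecMod M ℓ

end Fermat.Agent.S48.Per
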