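import Fermat.Agent.S48.Per.Defs
import Fermat.Agent.S21.Primitive

/-!
# S48-PER: primitives and periods of cusp forms of weight two on `Γ₁(M)`

PORT of `Fermat/Agent/S21/Primitive.lean` (lines 137-296) from `Γ₀(N)` to `Γ₁(M)`.  The general lemmas
`S21.exists_primitive_of_periodic`, `S21.exists_conj_upper`, `S21.hasDerivAt_comp_smul`,
`S21.const_of_hasDerivAt_zero` are imported and used as they are.  The Prelude notions
`HasEquivariantPrimitive`, `periodMap` (only for `Γ₀(N)`) are replaced by `IsPrim1`, `per`.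
-/

set_option autoImplicit false

open CongruenceSubgroup Matrix.SpecialLinearGroup UpperHalfPlane Filter Topology
open scoped MatrixGroups ModularForm Manifold

namespace Fermat.Agent.S48.Per

/-- `F` is the primitive of `f` which vanishes at `i∞`; it has a limit at every cusp. -/
structure IsPrim1 (f F : ℍ → ℂ) : Prop where
  deriv : ∀ τ : ℍ, HasDerivAt (F ∘ ofComplex) (f τ) ↑τ
  zero : Tendsto F atImInfty (𝓝 0)
  lim : ∀ δ : SL(2, ℤ), ∃ L : ℂ, Tendsto (fun w : ℍ => F (δ • w)) atImInfty (𝓝 L)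

theorem IsPrim1.unique {f F F' : ℍ → ℂ} (h : IsPrim1 f F) (h' : IsPrim1 f F') : F = F' := by
  have hz : ∀ τ : ℍ, HasDerivAt ((fun w : ℍ => F w - F' w) ∘ ofComplex) 0 ↑τ := by
    intro τ
    have h2 := (h.deriv τ).sub (h'.deriv τ)
    rw [sub_self] at h2
    exact h2
  have hc : ∀ w, F w - F' w = F I - F' I := fun w => S21.const_of_hasDerivAt_zero hz w I
  have ht : Tendsto (fun w : ℍ => F w - F' w) atImInfty (𝓝 0) := by
    simpa using h.zero.sub h'.zero
  have h0 : F I - F' I = 0 := by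
    have h2 : Tendsto (fun w : ℍ => F w - F' w) atImInfty (𝓝 (F I - F' I)) := by
      simp_rw [hc]; exact tendsto_const_nhds
    exact tendsto_nhds_unique h2 ht
  funext w
  have := hc w
  rw [h0] at this
  exact sub_eq_zero.mp this

theorem IsPrim1.add {f g F G : ℍ → ℂ} (hF : IsPrim1 f F) (hG : IsPrim1 g G) :
    IsPrim1 (f + g) (F + G) := by
  refine ⟨fun τ => (hF.deriv τ).add (hG.deriv τ),
    (by simpa using hF.zero.add hG.zero : Tendsto (fun x => F x + G x) atImInfty (𝓝 0)),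
    fun δ => ?_⟩
  obtain ⟨L, hL⟩ := hF.lim δ
  obtain ⟨L', hL'⟩ := hG.lim δ
  exact ⟨L + L', hL.add hL'⟩

theorem IsPrim1.smul {f F : ℍ → ℂ} (hF : IsPrim1 f F) (a : ℂ) : IsPrim1 (a • f) (a • F) := by
  refine ⟨fun τ => (hF.deriv τ).const_smul a,
    (by simpa using hF.zero.const_smul a : Tendsto (fun x => a • F x) atImInfty (𝓝 0)),
    fun δ => ?_⟩
  obtain ⟨L, hL⟩ := hF.lim δ
  exact ⟨a • L, hL.const_smul a⟩

variable {M : ℕ} [NeZero M]

/-- port of `S21.slash_primitive`. -/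
theorem slash_primitive1 (f : CuspForm (Gamma1 M) 2) (δ : SL(2, ℤ)) :
    ∃ Φ : ℍ → ℂ, (∀ τ : ℍ, HasDerivAt (Φ ∘ ofComplex) (((f : ℍ → ℂ) ∣[(2 : ℤ)] δ) τ) ↑τ) ∧
      Tendsto Φ atImInfty (𝓝 0) := by
  obtain ⟨P, hP, hper⟩ := Subgroup.IsArithmetic.exists_nat_mem_strictPeriods_conj
    (Subgroup.map (Matrix.SpecialLinearGroup.mapGL ℝ) (Gamma1 M))
  have h := hper δ⁻¹
  have hperiodic : Function.Periodic
      ((CuspForm.translate f (Matrix.SpecialLinearGroup.mapGL ℝ δ)) ∘ ofComplex) (P : ℝ) :=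
    SlashInvariantFormClass.periodic_comp_ofComplex _ (by simpa using h)
  have hPpos : (0 : ℝ) < P := by exact_mod_cast hP
  exact S21.exists_primitive_of_periodic hPpos hperiodic
    ((CuspFormClass.holo f).slash 2 _) (CuspFormClass.zero_at_infty_slash f δ)

/-- port of `S21.exists_primitive`. -/
theorem exists_isPrim1 (f : CuspForm (Gamma1 M) 2) : ∃ F : ℍ → ℂ, IsPrim1 f F := by
  obtain ⟨F, hF, hF0⟩ := slash_primitive1 f 1
  have hF' : ∀ τ : ℍ, HasDerivAt (F ∘ ofComplex) (f τ) ↑τ := by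
    intro τ
    have := hF τ
    rwa [SlashAction.slash_one] at this
  refine ⟨F, hF', hF0, fun δ => ?_⟩
  obtain ⟨Φ, hΦ, hΦ0⟩ := slash_primitive1 f δ
  have hz : ∀ τ : ℍ, HasDerivAt ((fun w : ℍ => F (δ • w) - Φ w) ∘ ofComplex) 0 ↑τ := by
    intro τ
    have h2 := (S21.hasDerivAt_comp_smul hF' δ τ).sub (hΦ τ)
    rw [sub_self] at h2
    exact h2
  refine ⟨F (δ • I) - Φ I, ?_⟩
  have h3 : (fun w : ℍ => F (δ • w)) = fun w => Φ w + (F (δ • I) - Φ I) := by
    funext w
    have := S21.const_of_hasDerivAt_zero hz w I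
    rw [← this]; ring
  rw [h3]
  simpa using hΦ0.add_const (F (δ • I) - Φ I)

/-- the primitive of `f`. -/
noncomputable def prim (f : CuspForm (Gamma1 M) 2) : ℍ → ℂ := (exists_isPrim1 f).choose

theorem isPrim1_prim (f : CuspForm (Gamma1 M) 2) : IsPrim1 f (prim f) :=
  (exists_isPrim1 f).choose_spec

/-- `F (γ z) - F z` does not depend on `z`. -/
theorem prim_smul_sub (f : CuspForm (Gamma1 M) 2) (γ : Gamma1 M) (z w : ℍ) :
    prim f ((γ : SL(2, ℤ)) • z) - prim f z = prim f ((γ : SL(2, ℤ)) • w) - prim f w := by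
  have hF' := (isPrim1_prim f).deriv
  have hinv : (f : ℍ → ℂ) ∣[(2 : ℤ)] (γ : SL(2, ℤ)) = f := by
    rw [ModularForm.SL_slash]
    exact SlashInvariantFormClass.slash_action_eq f _ (Subgroup.mem_map_of_mem _ γ.2)
  have hz : ∀ τ : ℍ, HasDerivAt
      ((fun w : ℍ => prim f ((γ : SL(2, ℤ)) • w) - prim f w) ∘ ofComplex) 0 ↑τ := by
    intro τ
    have h1 := S21.hasDerivAt_comp_smul hF' (γ : SL(2, ℤ)) τ
    rw [hinv] at h1
    have h2 := h1.sub (hF' τ)
    rw [sub_self] at h2
    exact h2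
  exact S21.const_of_hasDerivAt_zero hz z w

/-- the period homomorphism of `f`. -/
noncomputable def per (f : CuspForm (Gamma1 M) 2) : Additive (Gamma1 M) →+ ℂ where
  toFun γ := prim f (((Additive.toMul γ : Gamma1 M) : SL(2, ℤ)) • I) - prim f I
  map_zero' := by
    simp
  map_add' := by
    intro γ γ'
    have h := prim_smul_sub f (Additive.toMul γ)
      (((Additive.toMul γ' : Gamma1 M) : SL(2, ℤ)) • I) I
    rw [toMul_add, Subgroup.coe_mul, mul_smul]
    linear_combination h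

theorem per_apply (f : CuspForm (Gamma1 M) 2) (γ : Gamma1 M) (z : ℍ) :
    per f (Additive.ofMul γ) = prim f ((γ : SL(2, ℤ)) • z) - prim f z :=
  prim_smul_sub f γ I z

theorem per_add (f g : CuspForm (Gamma1 M) 2) : per (f + g) = per f + per g := by
  have h : prim (f + g) = prim f + prim g := by
    refine (isPrim1_prim (f + g)).unique ?_
    rw [CuspForm.coe_add]
    exact (isPrim1_prim f).add (isPrim1_prim g)
  refine AddMonoidHom.ext fun γ => ?_
  obtain ⟨γ, rfl⟩ := Additive.ofMul.surjective γ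
  rw [AddMonoidHom.add_apply, per_apply _ γ I, per_apply _ γ I, per_apply _ γ I, h]
  simp only [Pi.add_apply]; ring

theorem per_smul (a : ℂ) (f : CuspForm (Gamma1 M) 2) : per (a • f) = a • per f := by
  have h : prim (a • f) = a • prim f := by
    refine (isPrim1_prim (a • f)).unique ?_
    rw [CuspForm.coe_smul]
    exact (isPrim1_prim f).smul a
  refine AddMonoidHom.ext fun γ => ?_
  obtain ⟨γ, rfl⟩ := Additive.ofMul.surjective γ
  rw [AddMonoidHom.smul_apply, per_apply _ γ I, per_apply _ γ I, h]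
  simp only [Pi.smul_apply, smul_eq_mul]; ring

/-- The period map as a linear map. -/
noncomputable def perLin : CuspForm (Gamma1 M) 2 →ₗ[ℂ] (Additive (Gamma1 M) →+ ℂ) where
  toFun := per
  map_add' := per_add
  map_smul' := per_smul

@[simp] theorem perLin_apply (f : CuspForm (Gamma1 M) 2) : perLin f = per f := rfl

/-- port of `S21.periodMap_mem_parabolicHoms` (+ `ℂ` is torsion free). -/
theorem kills1_per (f : CuspForm (Gamma1 M) 2) : Kills1 (per f) := by
  intro γ hγ
  rcases hγ with hγ | hγ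
  · obtain ⟨n, hn, hγn⟩ := isOfFinOrder_iff_pow_eq_one.1 hγ
    have h1 : γ ^ n = 1 := by
      apply Subtype.ext
      rw [Subgroup.coe_pow, hγn, Subgroup.coe_one]
    have h2 : n • per f (Additive.ofMul γ) = 0 := by
      rw [← map_nsmul, ← ofMul_pow, h1, ofMul_one, map_zero]
    rw [nsmul_eq_mul] at h2
    rcases mul_eq_zero.1 h2 with h | h
    · exact absurd (by exact_mod_cast h) hn.ne'
    · exact h
  · have hF := isPrim1_prim f
    obtain ⟨δ, hδ⟩ := S21.exists_conj_upper (γ : SL(2, ℤ)) hγ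
    obtain ⟨L, hL⟩ := hF.lim δ
    obtain ⟨g, hg⟩ : ∃ g : SL(2, ℤ), g = δ⁻¹ * (γ : SL(2, ℤ)) * δ := ⟨_, rfl⟩
    rw [← hg] at hδ
    have hup : (g : GL (Fin 2) ℝ) 1 0 = 0 := by
      simp [hδ]
    have ht : Tendsto (fun w : ℍ => g • w) atImInfty atImInfty :=
      tendsto_smul_atImInfty hup
    have h1 : Tendsto (fun w : ℍ => prim f (δ • (g • w))) atImInfty (𝓝 L) := hL.comp ht
    have h2 : ∀ w : ℍ, prim f (δ • (g • w)) - prim f (δ • w) = per f (Additive.ofMul γ) := by
      intro w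
      rw [per_apply f γ (δ • w), ← mul_smul, ← mul_smul, hg]
      congr 3
      group
    have h3 : Tendsto (fun _ : ℍ => per f (Additive.ofMul γ)) atImInfty (𝓝 (L - L)) :=
      (h1.sub hL).congr h2
    rw [sub_self] at h3
    exact tendsto_nhds_unique tendsto_const_nhds h3

end Fermat.Agent.S48.Per
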