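import Fermat.Agent.S48.Per.Defs
import Fermat.Agent.S49.Normalize

/-!
# S48-PER: `q`-coefficients of cusp forms on `Γ₁(M)`

PORT of the section `QCoeff` of `Fermat/Agent/S49/Normalize.lean` (lines 117-170) to `Γ₁(M)`, and the
commutation of the formal Hecke operators `cT`.
-/

set_option autoImplicit false

open CongruenceSubgroup Matrix.SpecialLinearGroup UpperHalfPlane ModularFormClass
open scoped MatrixGroups ModularForm

namespace Fermat.Agent.S48.Per

/-- [`T ∈ Γ₁(M)`; model: the Prelude proof of `CongruenceSubgroup.one_mem_strictPeriods_Gamma0`.] -/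
theorem one_mem_strictPeriods_Gamma1 (M : ℕ) :
    (1 : ℝ) ∈ (Subgroup.map (Matrix.SpecialLinearGroup.mapGL ℝ) (Gamma1 M)).strictPeriods := by
  rw [CongruenceSubgroup.strictPeriods_Gamma1]
  exact AddSubgroup.mem_zmultiples 1

variable {M : ℕ} {k : ℤ}

theorem qCoeff_smul1 (c : ℂ) (g : CuspForm (Gamma1 M) k) (n : ℕ) :
    qCoeff (⇑(c • g : CuspForm (Gamma1 M) k)) n = c * qCoeff g n := by
  unfold qCoeff
  have := ModularForm.qExpansion_smul (h := 1) one_pos (one_mem_strictPeriods_Gamma1 M) c g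
  rw [FunLike.coe_smul, this]
  simp

theorem qCoeff_add1 (f g : CuspForm (Gamma1 M) k) (n : ℕ) :
    qCoeff (⇑(f + g : CuspForm (Gamma1 M) k)) n = qCoeff f n + qCoeff g n := by
  unfold qCoeff
  have := ModularForm.qExpansion_add (h := 1) one_pos (one_mem_strictPeriods_Gamma1 M) f g
  rw [FunLike.coe_add, this]
  simp

theorem qCoeff_sub1 (f g : CuspForm (Gamma1 M) k) (n : ℕ) :
    qCoeff (⇑(f - g : CuspForm (Gamma1 M) k)) n = qCoeff f n - qCoeff g n := by
  unfold qCoeff
  have := ModularForm.qExpansion_sub (h := 1) one_pos (one_mem_strictPeriods_Gamma1 M) f g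
  rw [FunLike.coe_sub, this]
  simp

theorem eq_zero_of_qCoeff1 (g : CuspForm (Gamma1 M) k) (h : ∀ n, qCoeff g n = 0) : g = 0 := by
  have hΓ := one_mem_strictPeriods_Gamma1 M
  have : Fact (IsCusp OnePoint.infty (Subgroup.map (Matrix.SpecialLinearGroup.mapGL ℝ) (Gamma1 M))) :=
    ⟨Subgroup.isCusp_of_mem_strictPeriods one_pos hΓ⟩
  have h0 : qExpansion 1 g = 0 := by
    ext n; simpa [qCoeff] using h n
  have := (UpperHalfPlane.qExpansion_eq_zero_iff (h := 1) one_pos
    (SlashInvariantFormClass.periodic_comp_ofComplex g hΓ) (CuspFormClass.holo g)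
    (ModularFormClass.bdd_at_infty g)).1 h0
  exact DFunLike.coe_injective this

theorem eq_of_qCoeff1 (f g : CuspForm (Gamma1 M) k) (h : ∀ n, qCoeff f n = qCoeff g n) :
    f = g := by
  refine sub_eq_zero.1 (eq_zero_of_qCoeff1 _ fun n => ?_)
  rw [qCoeff_sub1, h n, sub_self]

/-- the formal Hecke operators commute. -/
theorem cT_comm {C : Type*} [CommRing C] (e : ℕ → C) {p q : ℕ} (hp : p.Prime) (hq : q.Prime)
    (a : ℕ → C) : cT (e p) p (cT (e q) q a) = cT (e q) q (cT (e p) p a) := by
  rcases eq_or_ne p q with rfl | hpq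
  · rfl
  have hcop : Nat.Coprime p q := (Nat.coprime_primes hp hq).2 hpq
  funext n
  simp only [cT]
  have h1 : q ∣ p * n ↔ q ∣ n :=
    ⟨fun h => hcop.symm.dvd_of_dvd_mul_left h, fun h => Dvd.dvd.mul_left h p⟩
  have h2 : p ∣ q * n ↔ p ∣ n :=
    ⟨fun h => hcop.dvd_of_dvd_mul_left h, fun h => Dvd.dvd.mul_left h q⟩
  by_cases hpn : p ∣ n <;> by_cases hqn : q ∣ n
  · obtain ⟨m, rfl⟩ := hcop.mul_dvd_of_dvd_of_dvd hpn hqn
    have e1 : p * (p * q * m) / q = p * (p * m) := by
      rw [show p * (p * q * m) = q * (p * (p * m)) by ring, Nat.mul_div_cancel_left _ hq.pos]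
    have e2 : q * (p * q * m) / p = q * (q * m) := by
      rw [show q * (p * q * m) = p * (q * (q * m)) by ring, Nat.mul_div_cancel_left _ hp.pos]
    have e3 : p * q * m / p = q * m := by
      rw [mul_assoc, Nat.mul_div_cancel_left _ hp.pos]
    have e4 : p * q * m / q = p * m := by
      rw [show p * q * m = q * (p * m) by ring, Nat.mul_div_cancel_left _ hq.pos]
    have e5 : q * m / q = m := Nat.mul_div_cancel_left _ hq.pos
    have e6 : p * m / p = m := Nat.mul_div_cancel_left _ hp.pos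
    simp only [h1, h2, hpn, hqn, if_true, e1, e2, e3, e4, e5, e6, dvd_mul_right]
    rw [show q * (p * (p * q * m)) = p * (q * (p * q * m)) by ring]
    ring
  · obtain ⟨m, rfl⟩ := hpn
    have hqm : ¬ q ∣ m := fun h => hqn (Dvd.dvd.mul_left h p)
    have e2 : q * (p * m) / p = q * m := by
      rw [show q * (p * m) = p * (q * m) by ring, Nat.mul_div_cancel_left _ hp.pos]
    have e6 : p * m / p = m := Nat.mul_div_cancel_left _ hp.pos
    simp only [h1, h2, hqn, hqm, if_false, if_true, e2, e6, dvd_mul_right, mul_zero, add_zero]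
    rw [show q * (p * (p * m)) = p * (q * (p * m)) by ring]
  · obtain ⟨m, rfl⟩ := hqn
    have hpm : ¬ p ∣ m := fun h => hpn (Dvd.dvd.mul_left h q)
    have e2 : p * (q * m) / q = p * m := by
      rw [show p * (q * m) = q * (p * m) by ring, Nat.mul_div_cancel_left _ hq.pos]
    have e6 : q * m / q = m := Nat.mul_div_cancel_left _ hq.pos
    simp only [h1, h2, hpn, hpm, if_false, if_true, e2, e6, dvd_mul_right, mul_zero, add_zero]
    rw [show q * (p * (q * m)) = p * (q * (q * m)) by ring]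
  · simp only [h1, h2, hpn, hqn, if_false, mul_zero, add_zero]
    rw [show q * (p * n) = p * (q * n) by ring]

end Fermat.Agent.S48.Per
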