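import Fermat.Agent.S48.Per.HeckeChi
import Fermat.Agent.S48.Per.Equiv
import Fermat.Agent.S48.Per.Inj

/-!
# S48-PER: the space `S₂(M, χ)` with its commuting operators `T_p` and its period pairing
-/

set_option autoImplicit false

open CongruenceSubgroup Matrix.SpecialLinearGroup UpperHalfPlane ModularFormClass
  Fermat.Agent.G1.B
open scoped MatrixGroups ModularForm

namespace Fermat.Agent.S48.Per

variable {M : ℕ} [NeZero M] (χ : DirichletCharacter ℂ M)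

/-- the index set of the Hecke operators. -/
abbrev PrimeIdx (M : ℕ) : Type := {p : ℕ // p.Prime ∧ ¬ p ∣ M}

/-- `T_p` on `S₂(M, χ)`.  [`toFun f := ⟨(exists_heckeChi ..).choose, _⟩`; linearity by
`eq_of_qCoeff1` (or `DFunLike.coe_injective` and the slash formula).] -/
theorem exists_Tchi (p : PrimeIdx M) :
    ∃ T : Module.End ℂ (S2chi M χ), ∀ f : S2chi M χ,
      (haveI : Fact p.1.Prime := ⟨p.2.1⟩
       ⇑(T f : CuspForm (Gamma1 M) 2) =
        ∑ x, ⇑(f : CuspForm (Gamma1 M) 2) ∣[(2 : ℤ)] (repsT1 p.1 p.2.2).α x) ∧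
      ∀ n, qCoeff (T f : CuspForm (Gamma1 M) 2) n =
        cT ((p.1 : ℂ) * χ (p.1 : ZMod M)) p.1 (qCoeff (f : CuspForm (Gamma1 M) 2)) n := by
  have : Fact p.1.Prime := ⟨p.2.1⟩
  have H := fun f : S2chi M χ => exists_heckeChi χ p.1 p.2.2 (f : CuspForm (Gamma1 M) 2) f.2
  choose g hg1 hg2 hg3 using H
  refine ⟨{ toFun := fun f => ⟨g f, hg1 f⟩, map_add' := ?_, map_smul' := ?_ },
    fun f => ⟨hg2 f, hg3 f⟩⟩
  · intro f f'
    apply Subtype.ext
    apply eq_of_qCoeff1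
    intro n
    change qCoeff (g (f + f')) n = qCoeff (⇑(g f + g f')) n
    rw [hg3, qCoeff_add1, hg3, hg3]
    simp only [cT, Submodule.coe_add, qCoeff_add1]
    split_ifs <;> ring
  · intro c f
    apply Subtype.ext
    apply eq_of_qCoeff1
    intro n
    change qCoeff (g (c • f)) n = qCoeff (⇑(c • g f)) n
    rw [hg3, qCoeff_smul1, hg3]
    simp only [cT, Submodule.coe_smul, qCoeff_smul1]
    split_ifs <;> ring

/-- `T_p` on `S₂(M, χ)`. -/
noncomputable def Tchi (p : PrimeIdx M) : Module.End ℂ (S2chi M χ) := (exists_Tchi χ p).choose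

theorem qCoeff_Tchi (p : PrimeIdx M) (f : S2chi M χ) (n : ℕ) :
    qCoeff (Tchi χ p f : CuspForm (Gamma1 M) 2) n =
      cT ((p.1 : ℂ) * χ (p.1 : ZMod M)) p.1 (qCoeff (f : CuspForm (Gamma1 M) 2)) n :=
  ((exists_Tchi χ p).choose_spec f).2 n

/-- [`cT_comm`, `eq_of_qCoeff1`.] -/
theorem Tchi_comm (p q : PrimeIdx M) : Tchi χ p * Tchi χ q = Tchi χ q * Tchi χ p := by
  refine LinearMap.ext fun f => Subtype.ext (eq_of_qCoeff1 _ _ fun n => ?_)
  have h : ∀ (r : PrimeIdx M) (f' : S2chi M χ),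
      qCoeff (Tchi χ r f' : CuspForm (Gamma1 M) 2) =
        cT ((r.1 : ℂ) * χ (r.1 : ZMod M)) r.1 (qCoeff (f' : CuspForm (Gamma1 M) 2)) :=
    fun r f' => funext fun n => qCoeff_Tchi χ r f' n
  rw [Module.End.mul_apply, Module.End.mul_apply, h, h, h, h]
  exact congrFun (cT_comm (fun r : ℕ => (r : ℂ) * χ (r : ZMod M)) p.2.1 q.2.1 _) n

/-- [`per_of_reps`.] -/
theorem per_Tchi (p : PrimeIdx M) (f : S2chi M χ) :
    per (Tchi χ p f : CuspForm (Gamma1 M) 2) =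
      (haveI : Fact p.1.Prime := ⟨p.2.1⟩
       (repsT1 p.1 p.2.2).op ℂ (per (f : CuspForm (Gamma1 M) 2))) := by
  have : Fact p.1.Prime := ⟨p.2.1⟩
  exact per_of_reps (repsT1 p.1 p.2.2) (f : CuspForm (Gamma1 M) 2)
    (Tchi χ p f : CuspForm (Gamma1 M) 2) ((exists_Tchi χ p).choose_spec f).1

/-- [`per_of_conj` with `g = χ(d) • f`, `per_smul`.] -/
theorem per_conj_S2chi (f : S2chi M χ) (σ : SL(2, ℤ)) (hσ : σ ∈ Gamma0 M) (γ γ' : Gamma1 M)
    (h : (γ' : SL(2, ℤ)) = σ * γ * σ⁻¹) :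
    per (f : CuspForm (Gamma1 M) 2) (Additive.ofMul γ') =
      χ ((σ 1 1 : ℤ) : ZMod M) * per (f : CuspForm (Gamma1 M) 2) (Additive.ofMul γ) := by
  have hg : ⇑(χ ((σ 1 1 : ℤ) : ZMod M) • (f : CuspForm (Gamma1 M) 2)) =
      ⇑(f : CuspForm (Gamma1 M) 2) ∣[(2 : ℤ)] σ := by
    rw [FunLike.coe_smul]
    exact (f.2 σ hσ).symm
  rw [← per_of_conj σ (f : CuspForm (Gamma1 M) 2) _ hg γ γ' h, per_smul,
    AddMonoidHom.smul_apply, smul_eq_mul]

/-- the period pairing: `ev γ f = ∫_γ f`. -/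
noncomputable def ev (γ : Gamma1 M) : Module.Dual ℂ (S2chi M χ) where
  toFun f := per (f : CuspForm (Gamma1 M) 2) (Additive.ofMul γ)
  map_add' f g := by
    rw [Submodule.coe_add, per_add, AddMonoidHom.add_apply]
  map_smul' c f := by
    rw [Submodule.coe_smul, per_smul, AddMonoidHom.smul_apply, RingHom.id_apply]

@[simp] theorem ev_apply (γ : Gamma1 M) (f : S2chi M χ) :
    ev χ γ f = per (f : CuspForm (Gamma1 M) 2) (Additive.ofMul γ) := rfl

theorem ev_mul (γ γ' : Gamma1 M) : ev χ (γ * γ') = ev χ γ + ev χ γ' := by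
  refine LinearMap.ext fun f => ?_
  rw [LinearMap.add_apply, ev_apply, ev_apply, ev_apply, ofMul_mul, map_add]

theorem ev_one : ev χ (1 : Gamma1 M) = 0 := by
  refine LinearMap.ext fun f => ?_
  rw [LinearMap.zero_apply, ev_apply, ofMul_one, map_zero]

theorem ev_inv (γ : Gamma1 M) : ev χ γ⁻¹ = - ev χ γ := by
  refine LinearMap.ext fun f => ?_
  rw [LinearMap.neg_apply, ev_apply, ev_apply, ofMul_inv, map_neg]

/-- [`kills1_per`.] -/
theorem ev_eq_zero_of_kills (γ : Gamma1 M) (h : IsOfFinOrder (γ : SL(2, ℤ)) ∨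
    ((γ : SL(2, ℤ)) : Matrix (Fin 2) (Fin 2) ℤ).trace ^ 2 = 4) : ev χ γ = 0 := by
  refine LinearMap.ext fun f => ?_
  rw [LinearMap.zero_apply, ev_apply]
  exact kills1_per (f : CuspForm (Gamma1 M) 2) γ h

/-- [`per_Tchi`, `Reps1.op_apply`.] -/
theorem ev_comp_Tchi (p : PrimeIdx M) (γ : Gamma1 M) :
    (ev χ γ).comp (Tchi χ p) =
      (haveI : Fact p.1.Prime := ⟨p.2.1⟩
       ∑ x, ev χ ((repsT1 p.1 p.2.2).coc γ x)) := by
  have : Fact p.1.Prime := ⟨p.2.1⟩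
  refine LinearMap.ext fun f => ?_
  rw [LinearMap.comp_apply, ev_apply, per_Tchi, Reps1.op_apply, LinearMap.sum_apply]
  rfl

theorem ev_conj (σ : SL(2, ℤ)) (hσ : σ ∈ Gamma0 M) (γ γ' : Gamma1 M)
    (h : (γ' : SL(2, ℤ)) = σ * γ * σ⁻¹) : ev χ γ' = χ ((σ 1 1 : ℤ) : ZMod M) • ev χ γ := by
  refine LinearMap.ext fun f => ?_
  rw [LinearMap.smul_apply, ev_apply, ev_apply, smul_eq_mul]
  exact per_conj_S2chi χ f σ hσ γ γ' h

/-- [`per_injective`.] -/
theorem eq_zero_of_ev (f : S2chi M χ) (h : ∀ γ, ev χ γ f = 0) : f = 0 := by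
  apply Subtype.ext
  apply per_injective
  refine AddMonoidHom.ext fun γ => ?_
  induction γ using Additive.rec with
  | ofMul γ => exact h γ

end Fermat.Agent.S48.Per
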